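import Mathlib

set_option autoImplicit false

/-!
The logarithmic derivative of units of `ℤ[ζ_p]` modulo `p`.
-/

namespace Fermat.Agent.Kummer

open NumberField Polynomial

section alg

variable (p : ℕ) [Fact p.Prime] (n : ℕ)

/-- truncated polynomials over `ZMod p` -/
abbrev TA := AdjoinRoot (X ^ n : (ZMod p)[X])

/-- dual numbers over truncated polynomials -/
abbrev TD := TrivSqZeroExt (TA p n) (TA p n)

noncomputable def tt : TA p n := AdjoinRoot.root _

lemma tt_pow : (tt p n) ^ n = 0 := by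
  have := AdjoinRoot.eval₂_root (X ^ n : (ZMod p)[X])
  simpa [tt] using this

lemma p_eq_zero : (p : TA p n) = 0 := by
  have : ((p : ZMod p) : ZMod p) = 0 := by simp
  have h := congrArg (algebraMap (ZMod p) (TA p n)) this
  rwa [map_natCast, map_zero] at h

noncomputable def zz : TD p n := TrivSqZeroExt.inl (1 + tt p n) + TrivSqZeroExt.inr 1

@[simp] lemma zz_fst : (zz p n).fst = 1 + tt p n := by simp [zz]

@[simp] lemma zz_snd : (zz p n).snd = 1 := by simp [zz]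

lemma cyclotomic_zmod : cyclotomic p (ZMod p) = (X - 1) ^ (p - 1) := by
  have h := cyclotomic_mul_prime_pow_eq (ZMod p) (p := p) (m := 1)
    (by simpa using (Fact.out : p.Prime).ne_one) (k := 1) one_pos
  simpa using h

lemma aeval_zz : aeval (zz p (p - 2)) (cyclotomic p ℤ) = 0 := by
  have h2 : 2 ≤ p := (Fact.out : p.Prime).two_le
  have h1 : aeval (zz p (p - 2)) (cyclotomic p ℤ) =
      aeval (zz p (p - 2)) ((cyclotomic p ℤ).map (algebraMap ℤ (ZMod p))) := by
    rw [aeval_map_algebraMap]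
  rw [h1, map_cyclotomic, cyclotomic_zmod]
  simp only [map_pow, map_sub, aeval_X, map_one]
  ext
  · rw [TrivSqZeroExt.fst_pow]
    simp only [TrivSqZeroExt.fst_sub, zz_fst, TrivSqZeroExt.fst_one, add_sub_cancel_left,
      TrivSqZeroExt.fst_zero]
    have : p - 1 = (p - 2) + 1 := by omega
    rw [this, pow_succ, tt_pow, zero_mul]
  · rw [TrivSqZeroExt.snd_pow]
    have : (p - 1).pred = p - 2 := by
      rw [Nat.pred_eq_sub_one]; omega
    rw [this]
    simp [tt_pow]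

lemma monic_Xpow : (X ^ n : (ZMod p)[X]).Monic := monic_X_pow n

/-- the coordinate functionals -/
noncomputable def coord (k : ℕ) : TA p n →ₗ[ZMod p] ZMod p :=
  (lcoeff (ZMod p) k).comp (AdjoinRoot.modByMonicHom (monic_Xpow p n))

variable {n}

lemma coord_pow {k : ℕ} (hk : k < n) (i : ℕ) :
    coord p n k (tt p n ^ i) = if i = k then 1 else 0 := by
  have h1 : tt p n ^ i = AdjoinRoot.mk _ (X ^ i) := by
    rw [map_pow, AdjoinRoot.mk_X]; rfl
  rw [h1, coord, LinearMap.comp_apply, AdjoinRoot.modByMonicHom_mk, lcoeff_apply]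
  have h2 := modByMonic_add_div (X ^ i : (ZMod p)[X]) (X ^ n)
  have h3 := congrArg (fun f => coeff f k) h2
  simp only [coeff_add, coeff_X_pow] at h3
  rw [coeff_X_pow_mul', if_neg (not_le.2 hk), add_zero] at h3
  rw [h3]
  simp [eq_comm]

lemma coord_natCast_mul (k : ℕ) (c : ℕ) (x : TA p n) :
    coord p n k ((c : TA p n) * x) = c * coord p n k x := by
  rw [← nsmul_eq_mul, map_nsmul, nsmul_eq_mul]

end alg

section dlog

variable {p : ℕ} [hp : Fact p.Prime] {K : Type*} [Field K] [NumberField K]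
  [IsCyclotomicExtension {p} ℚ K] {ζ : K} (hζ : IsPrimitiveRoot ζ p)

/-- the ring hom `ζ ↦ 1 + t + ε`. -/
noncomputable def Psi : 𝓞 K →ₐ[ℤ] TD p (p - 2) :=
  hζ.integralPowerBasis.lift (zz p (p - 2)) (by
    have h1 : minpoly ℤ hζ.integralPowerBasis.gen = cyclotomic p ℤ := by
      rw [hζ.integralPowerBasis_gen]
      have h2 : minpoly ℤ (algebraMap (𝓞 K) K hζ.toInteger) = minpoly ℤ hζ.toInteger :=
        minpoly.algebraMap_eq RingOfIntegers.coe_injective _
      rw [← h2]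
      exact (cyclotomic_eq_minpoly hζ hp.out.pos).symm
    rw [h1, aeval_zz])

lemma Psi_zeta : Psi hζ hζ.toInteger = zz p (p - 2) := by
  have := hζ.integralPowerBasis.lift_gen (zz p (p - 2)) (by
    have h1 : minpoly ℤ hζ.integralPowerBasis.gen = cyclotomic p ℤ := by
      rw [hζ.integralPowerBasis_gen]
      have h2 : minpoly ℤ (algebraMap (𝓞 K) K hζ.toInteger) = minpoly ℤ hζ.toInteger :=
        minpoly.algebraMap_eq RingOfIntegers.coe_injective _
      rw [← h2]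
      exact (cyclotomic_eq_minpoly hζ hp.out.pos).symm
    rw [h1, aeval_zz])
  rw [← hζ.integralPowerBasis_gen]
  exact this

/-- logarithmic derivative -/
noncomputable def dlog : Additive (𝓞 K)ˣ →+ TA p (p - 2) where
  toFun u := (Psi hζ (Additive.toMul u : (𝓞 K)ˣ)).snd *
    (Psi hζ (((Additive.toMul u)⁻¹ : (𝓞 K)ˣ) : 𝓞 K)).fst
  map_zero' := by simp
  map_add' u v := by
    have hu : (Psi hζ (Additive.toMul u : (𝓞 K)ˣ)).fst *
      (Psi hζ (((Additive.toMul u)⁻¹ : (𝓞 K)ˣ) : 𝓞 K)).fst = 1 := by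
      rw [← TrivSqZeroExt.fst_mul, ← map_mul, Units.mul_inv, map_one, TrivSqZeroExt.fst_one]
    have hv : (Psi hζ (Additive.toMul v : (𝓞 K)ˣ)).fst *
      (Psi hζ (((Additive.toMul v)⁻¹ : (𝓞 K)ˣ) : 𝓞 K)).fst = 1 := by
      rw [← TrivSqZeroExt.fst_mul, ← map_mul, Units.mul_inv, map_one, TrivSqZeroExt.fst_one]
    simp only [toMul_add, Units.val_mul, map_mul, mul_inv, TrivSqZeroExt.snd_mul,
      TrivSqZeroExt.fst_mul, smul_eq_mul, MulOpposite.smul_eq_mul_unop, MulOpposite.unop_op]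
    linear_combination (Psi hζ (Additive.toMul v : (𝓞 K)ˣ)).snd *
      (Psi hζ (((Additive.toMul v)⁻¹ : (𝓞 K)ˣ) : 𝓞 K)).fst * hu +
      (Psi hζ (Additive.toMul u : (𝓞 K)ˣ)).snd *
      (Psi hζ (((Additive.toMul u)⁻¹ : (𝓞 K)ˣ) : 𝓞 K)).fst * hv

/-- how to compute `dlog` -/
lemma dlog_eq {u : (𝓞 K)ˣ} {F F' G : TA p (p - 2)} (h1 : (Psi hζ u).fst = F)
    (h2 : (Psi hζ u).snd = F') (h3 : F' = G * F) : dlog hζ (Additive.ofMul u) = G := by
  have hu : (Psi hζ u).fst * (Psi hζ ((u⁻¹ : (𝓞 K)ˣ) : 𝓞 K)).fst = 1 := by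
    rw [← TrivSqZeroExt.fst_mul, ← map_mul, Units.mul_inv, map_one, TrivSqZeroExt.fst_one]
  change (Psi hζ u).snd * (Psi hζ ((u⁻¹ : (𝓞 K)ˣ) : 𝓞 K)).fst = G
  rw [h2, h3, ← h1, mul_assoc, hu, mul_one]

lemma dlog_eq_zero {u : (𝓞 K)ˣ} (h : ∃ n : ℤ, (p : 𝓞 K) ∣ (u : 𝓞 K) - n) :
    dlog hζ (Additive.ofMul u) = 0 := by
  obtain ⟨n, w, hw⟩ := h
  have h1 : (u : 𝓞 K) = n + p * w := by rw [← hw]; ring
  have hp0 : ((p : ℕ) : TD p (p - 2)) = 0 := by
    ext
    · rw [TrivSqZeroExt.fst_natCast, p_eq_zero, TrivSqZeroExt.fst_zero]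
    · rw [TrivSqZeroExt.snd_natCast, TrivSqZeroExt.snd_zero]
  have h2 : (Psi hζ u).snd = 0 := by
    rw [h1, map_add, map_mul, map_natCast, hp0, zero_mul, add_zero, map_intCast,
      TrivSqZeroExt.snd_intCast]
  exact dlog_eq hζ rfl h2 (by rw [zero_mul])

end dlog

end Fermat.Agent.Kummer
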