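import Mathlib

set_option autoImplicit false

/-!
Sophie Germain's theorem: first case of FLT with an auxiliary prime.
-/

namespace Fermat.Agent.Kummer

open Finset

/-- `x^p + y^p = (x+y) Q(x,y)`. -/
def SGQ {R : Type*} [CommRing R] (p : ℕ) (x y : R) : R :=
  ∑ i ∈ range p, x ^ i * (-y) ^ (p - 1 - i)

lemma SGQ_mul {R : Type*} [CommRing R] {p : ℕ} (hp : Odd p) (x y : R) :
    SGQ p x y * (x + y) = x ^ p + y ^ p := by
  have := (Commute.all x (-y)).geom_sum₂_mul p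
  rw [SGQ]
  rw [sub_neg_eq_add, hp.neg_pow, sub_neg_eq_add] at this
  exact this

lemma SGQ_of_add_eq_zero {R : Type*} [CommRing R] {p : ℕ} (x y : R) (h : x + y = 0) :
    SGQ p x y = p * x ^ (p - 1) := by
  have hy : -y = x := (eq_neg_of_add_eq_zero_left h).symm
  rw [SGQ, hy]
  have : ∀ i ∈ range p, x ^ i * x ^ (p - 1 - i) = x ^ (p - 1) := by
    intro i hi
    rw [mem_range] at hi
    rw [← pow_add]
    congr 1
    omega
  rw [Finset.sum_congr rfl this]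
  simp

lemma SGQ_zero_left {R : Type*} [CommRing R] {p : ℕ} (hp : Odd p) (y : R) :
    SGQ p 0 y = y ^ (p - 1) := by
  rw [SGQ, Finset.sum_eq_single_of_mem 0 (Finset.mem_range.2 hp.pos)]
  · have : Even (p - 1) := hp.tsub_odd odd_one
    simp [this.neg_pow]
  · intro i _ hi
    rw [zero_pow hi, zero_mul]

lemma SGQ_cast {R : Type*} [CommRing R] {p : ℕ} (x y : ℤ) :
    ((SGQ p x y : ℤ) : R) = SGQ p (x : R) (y : R) := by
  simp [SGQ]

lemma SGQ_coprime {p : ℕ} (hp : p.Prime) (hp2 : p ≠ 2) {x y z : ℤ} (hxy : IsCoprime x y)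
    (h : x ^ p + y ^ p + z ^ p = 0) (hz : ¬ (p : ℤ) ∣ z) : IsCoprime (x + y) (SGQ p x y) := by
  have hodd := hp.odd_of_ne_two hp2
  rw [Int.isCoprime_iff_gcd_eq_one]
  by_contra hne
  obtain ⟨r, hr, hrd⟩ := Nat.exists_prime_and_dvd hne
  have h1 : (r : ℤ) ∣ x + y := (Int.natCast_dvd_natCast.2 hrd).trans (Int.gcd_dvd_left ..)
  have h2 : (r : ℤ) ∣ SGQ p x y := (Int.natCast_dvd_natCast.2 hrd).trans (Int.gcd_dvd_right ..)
  haveI : Fact r.Prime := ⟨hr⟩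
  have h1' : (x : ZMod r) + (y : ZMod r) = 0 := by
    have := (ZMod.intCast_zmod_eq_zero_iff_dvd (x + y) r).2 h1
    exact_mod_cast this
  have h2' : SGQ p (x : ZMod r) (y : ZMod r) = 0 := by
    rw [← SGQ_cast]
    exact (ZMod.intCast_zmod_eq_zero_iff_dvd _ r).2 h2
  rw [SGQ_of_add_eq_zero _ _ h1'] at h2'
  rcases mul_eq_zero.1 h2' with h3 | h3
  · -- r = p
    have hrp : r = p := (Nat.prime_dvd_prime_iff_eq hr hp).1 ((ZMod.natCast_eq_zero_iff p r).1 h3)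
    subst hrp
    apply hz
    apply (Nat.prime_iff_prime_int.1 hr).dvd_of_dvd_pow (n := r)
    have : z ^ r = -(SGQ r x y * (x + y)) := by rw [SGQ_mul hodd]; linarith
    rw [this]
    exact (h1.mul_left _).neg_right
  · have hx0 : (x : ZMod r) = 0 := (pow_eq_zero_iff (n := p - 1) (by
      have := hp.two_le; omega)).1 h3
    have hy0 : (y : ZMod r) = 0 := by rw [hx0, zero_add] at h1'; exact h1'
    have e1 := (ZMod.intCast_zmod_eq_zero_iff_dvd x r).1 hx0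
    have e2 := (ZMod.intCast_zmod_eq_zero_iff_dvd y r).1 hy0
    exact (Nat.prime_iff_prime_int.1 hr).not_isUnit (hxy.isUnit_of_dvd' e1 e2)

lemma SG_pow {p : ℕ} (hp : p.Prime) (hp2 : p ≠ 2) {x y z : ℤ} (hxy : IsCoprime x y)
    (h : x ^ p + y ^ p + z ^ p = 0) (hz : ¬ (p : ℤ) ∣ z) :
    ∃ c γ : ℤ, x + y = c ^ p ∧ SGQ p x y = γ ^ p := by
  have hodd := hp.odd_of_ne_two hp2
  have hc := SGQ_coprime hp hp2 hxy h hz
  have h1 : (x + y) * SGQ p x y = (-z) ^ p := by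
    rw [mul_comm, SGQ_mul hodd, hodd.neg_pow]; linarith
  obtain ⟨c, hc1⟩ := Int.eq_pow_of_mul_eq_pow_odd_left hc hodd h1
  obtain ⟨γ, hγ⟩ := Int.eq_pow_of_mul_eq_pow_odd_right hc hodd h1
  exact ⟨c, γ, hc1, hγ⟩

lemma SG_core {p q : ℕ} (hp : p.Prime) (hp2 : p ≠ 2) [Fact q.Prime]
    (h1 : ∀ x y z : ZMod q, x ^ p + y ^ p + z ^ p = 0 → x = 0 ∨ y = 0 ∨ z = 0)
    (h2 : ∀ x : ZMod q, x ^ p ≠ p) {x y z : ℤ} (hxy : IsCoprime x y) (hyz : IsCoprime y z)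
    (hzx : IsCoprime z x) (h : x ^ p + y ^ p + z ^ p = 0) (hx : ¬ (p : ℤ) ∣ x)
    (hy : ¬ (p : ℤ) ∣ y) (hz : ¬ (p : ℤ) ∣ z) (hqx : (x : ZMod q) = 0) : False := by
  have hodd := hp.odd_of_ne_two hp2
  obtain ⟨c, γ, hc, hγ⟩ := SG_pow hp hp2 hxy h hz
  obtain ⟨a, α, ha, hα⟩ := SG_pow hp hp2 (x := y) (y := z) (z := x) hyz (by linarith) hx
  obtain ⟨b, β, hb, hβ⟩ := SG_pow hp hp2 (x := z) (y := x) (z := y) hzx (by linarith) hy
  have hqq : Prime (q : ℤ) := Nat.prime_iff_prime_int.1 Fact.out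
  have hq1 : (q : ℤ) ∣ x := (ZMod.intCast_zmod_eq_zero_iff_dvd x q).1 hqx
  have hyq : (y : ZMod q) ≠ 0 := by
    intro h0
    exact hqq.not_isUnit (hxy.isUnit_of_dvd' hq1 ((ZMod.intCast_zmod_eq_zero_iff_dvd y q).1 h0))
  have hzq : (z : ZMod q) ≠ 0 := by
    intro h0
    exact hqq.not_isUnit (hzx.isUnit_of_dvd' ((ZMod.intCast_zmod_eq_zero_iff_dvd z q).1 h0) hq1)
  have hc' : (x : ZMod q) + y = (c : ZMod q) ^ p := by exact_mod_cast congrArg (Int.cast (R := ZMod q)) hc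
  have ha' : (y : ZMod q) + z = (a : ZMod q) ^ p := by exact_mod_cast congrArg (Int.cast (R := ZMod q)) ha
  have hb' : (z : ZMod q) + x = (b : ZMod q) ^ p := by exact_mod_cast congrArg (Int.cast (R := ZMod q)) hb
  have hγ' : SGQ p (x : ZMod q) y = (γ : ZMod q) ^ p := by
    rw [← SGQ_cast, hγ]; push_cast; rfl
  have hα' : SGQ p (y : ZMod q) z = (α : ZMod q) ^ p := by
    rw [← SGQ_cast, hα]; push_cast; rfl
  rw [hqx, zero_add] at hc'
  rw [hqx, add_zero] at hb'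
  rw [hqx, SGQ_zero_left hodd] at hγ'
  have hp0 : p ≠ 0 := hp.ne_zero
  have h3 : (b : ZMod q) ^ p + (c : ZMod q) ^ p + (-a : ZMod q) ^ p = 0 := by
    rw [hodd.neg_pow, ← hb', ← hc', ← ha']; ring
  rcases h1 _ _ _ h3 with h4 | h4 | h4
  · rw [h4, zero_pow hp0] at hb'; exact hzq hb'
  · rw [h4, zero_pow hp0] at hc'; exact hyq hc'
  · rw [neg_eq_zero] at h4
    rw [h4, zero_pow hp0] at ha'
    rw [SGQ_of_add_eq_zero _ _ ha', hγ'] at hα'
    have hγ0 : (γ : ZMod q) ≠ 0 := by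
      intro h0
      rw [h0, zero_pow hp0] at hγ'
      exact hyq ((pow_eq_zero_iff (by have := hp.two_le; omega)).1 hγ')
    apply h2 ((α : ZMod q) / γ)
    rw [div_pow, ← hα']
    field_simp

/-- Sophie Germain's theorem. -/
theorem sophie_germain {p q : ℕ} (hp : p.Prime) (hp2 : p ≠ 2) [Fact q.Prime]
    (h1 : ∀ x y z : ZMod q, x ^ p + y ^ p + z ^ p = 0 → x = 0 ∨ y = 0 ∨ z = 0)
    (h2 : ∀ x : ZMod q, x ^ p ≠ p) {x y z : ℤ} (hxy : IsCoprime x y) (hyz : IsCoprime y z)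
    (hzx : IsCoprime z x) (h : x ^ p + y ^ p + z ^ p = 0) (hx : ¬ (p : ℤ) ∣ x)
    (hy : ¬ (p : ℤ) ∣ y) (hz : ¬ (p : ℤ) ∣ z) : False := by
  have h' : (x : ZMod q) ^ p + (y : ZMod q) ^ p + (z : ZMod q) ^ p = 0 := by
    exact_mod_cast congrArg (Int.cast (R := ZMod q)) h
  rcases h1 _ _ _ h' with h3 | h3 | h3
  · exact SG_core hp hp2 h1 h2 hxy hyz hzx h hx hy hz h3
  · exact SG_core hp hp2 h1 h2 hyz hzx hxy (by linarith) hy hz hx h3
  · exact SG_core hp hp2 h1 h2 hzx hxy hyz (by linarith) hz hx hy h3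

/-- reduction of the condition `h1` to the list of `p`-th powers -/
lemma SG_cond {p q : ℕ} (s : Finset (ZMod q)) (hs : ∀ x : ZMod q, x ≠ 0 → x ^ p ∈ s)
    (h : ∀ a ∈ s, ∀ b ∈ s, ∀ c ∈ s, a + b + c ≠ 0) (x y z : ZMod q)
    (h0 : x ^ p + y ^ p + z ^ p = 0) : x = 0 ∨ y = 0 ∨ z = 0 := by
  by_contra hc
  push Not at hc
  exact h _ (hs x hc.1) _ (hs y hc.2.1) _ (hs z hc.2.2) h0

instance fact_prime_23 : Fact (Nat.Prime 23) := ⟨by norm_num⟩
instance fact_prime_29 : Fact (Nat.Prime 29) := ⟨by norm_num⟩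
instance fact_prime_53 : Fact (Nat.Prime 53) := ⟨by norm_num⟩
instance fact_prime_11 : Fact (Nat.Prime 11) := ⟨by norm_num⟩

theorem caseI_five {x y z : ℤ} (hxy : IsCoprime x y) (hyz : IsCoprime y z)
    (hzx : IsCoprime z x) (h : x ^ 5 + y ^ 5 + z ^ 5 = 0) (hx : ¬ (5 : ℤ) ∣ x)
    (hy : ¬ (5 : ℤ) ∣ y) (hz : ¬ (5 : ℤ) ∣ z) : False :=
  sophie_germain (p := 5) (q := 11) (by norm_num) (by norm_num)
    (SG_cond {1, -1} (by decide) (by decide)) (by decide) hxy hyz hzx h hx hy hz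

theorem caseI_seven {x y z : ℤ} (hxy : IsCoprime x y) (hyz : IsCoprime y z)
    (hzx : IsCoprime z x) (h : x ^ 7 + y ^ 7 + z ^ 7 = 0) (hx : ¬ (7 : ℤ) ∣ x)
    (hy : ¬ (7 : ℤ) ∣ y) (hz : ¬ (7 : ℤ) ∣ z) : False :=
  sophie_germain (p := 7) (q := 29) (by norm_num) (by norm_num)
    (SG_cond {1, -1, 12, -12} (by decide) (by decide)) (by decide) hxy hyz hzx h hx hy hz

theorem caseI_eleven {x y z : ℤ} (hxy : IsCoprime x y) (hyz : IsCoprime y z)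
    (hzx : IsCoprime z x) (h : x ^ 11 + y ^ 11 + z ^ 11 = 0) (hx : ¬ (11 : ℤ) ∣ x)
    (hy : ¬ (11 : ℤ) ∣ y) (hz : ¬ (11 : ℤ) ∣ z) : False :=
  sophie_germain (p := 11) (q := 23) (by norm_num) (by norm_num)
    (SG_cond {1, -1} (by decide) (by decide)) (by decide) hxy hyz hzx h hx hy hz

set_option maxRecDepth 10000 in
theorem caseI_thirteen {x y z : ℤ} (hxy : IsCoprime x y) (hyz : IsCoprime y z)
    (hzx : IsCoprime z x) (h : x ^ 13 + y ^ 13 + z ^ 13 = 0) (hx : ¬ (13 : ℤ) ∣ x)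
    (hy : ¬ (13 : ℤ) ∣ y) (hz : ¬ (13 : ℤ) ∣ z) : False :=
  sophie_germain (p := 13) (q := 53) (by norm_num) (by norm_num)
    (SG_cond {1, -1, 23, -23} (by decide) (by decide)) (by decide) hxy hyz hzx h hx hy hz

end Fermat.Agent.Kummer
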