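import Mathlib
import Fermat.Agent.Kummer.SophieGermain

set_option autoImplicit false
set_option linter.unusedSectionVars false

/-! `ℤ[ζ_p]` is a PID for `p = 7, 11, 13`. -/

namespace Fermat.Agent.Kummer

open NumberField Polynomial Ideal

section general

variable {p : ℕ} [hp : Fact p.Prime] {K : Type*} [Field K] [NumberField K]
  [IsCyclotomicExtension {p} ℚ K] {ζ : K} (hζ : IsPrimitiveRoot ζ p)

include hζ in
lemma minpoly_toInteger : minpoly ℤ hζ.toInteger = cyclotomic p ℤ := by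
  have h2 : minpoly ℤ (algebraMap (𝓞 K) K hζ.toInteger) = minpoly ℤ hζ.toInteger :=
    minpoly.algebraMap_eq RingOfIntegers.coe_injective _
  rw [← h2]
  exact (cyclotomic_eq_minpoly hζ hp.out.pos).symm

/-- the hom `ζ ↦ r`. -/
noncomputable def phi {q : ℕ} (r : ZMod q) (hr : ∑ i ∈ Finset.range p, r ^ i = 0) :
    𝓞 K →ₐ[ℤ] ZMod q :=
  hζ.integralPowerBasis.lift r (by
    have h1 : minpoly ℤ hζ.integralPowerBasis.gen = cyclotomic p ℤ := by
      rw [hζ.integralPowerBasis_gen, minpoly_toInteger]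
    rw [h1, cyclotomic_prime]
    simpa using hr)

lemma phi_zeta {q : ℕ} (r : ZMod q) (hr : ∑ i ∈ Finset.range p, r ^ i = 0) :
    phi hζ r hr hζ.toInteger = r := by
  have := hζ.integralPowerBasis.lift_gen r (by
    have h1 : minpoly ℤ hζ.integralPowerBasis.gen = cyclotomic p ℤ := by
      rw [hζ.integralPowerBasis_gen, minpoly_toInteger]
    rw [h1, cyclotomic_prime]
    simpa using hr)
  rw [← hζ.integralPowerBasis_gen]
  exact this

lemma adjoin_zeta : Algebra.adjoin ℤ {hζ.toInteger} = ⊤ := by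
  have := hζ.integralPowerBasis.adjoin_gen_eq_top
  rwa [hζ.integralPowerBasis_gen] at this

lemma exists_int_sub_dvd (r : ℤ) (x : 𝓞 K) : ∃ n : ℤ, hζ.toInteger - r ∣ x - n := by
  have hx : x ∈ Algebra.adjoin ℤ {hζ.toInteger} := by rw [adjoin_zeta]; trivial
  induction hx using Algebra.adjoin_induction with
  | mem x hx => exact ⟨r, by rw [Set.mem_singleton_iff.1 hx]⟩
  | algebraMap k => exact ⟨k, by simp⟩
  | add x y _ _ hx hy =>
    obtain ⟨a, ha⟩ := hx; obtain ⟨b, hb⟩ := hy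
    exact ⟨a + b, by push_cast; convert dvd_add ha hb using 1; ring⟩
  | mul x y _ _ hx hy =>
    obtain ⟨a, ha⟩ := hx; obtain ⟨b, hb⟩ := hy
    refine ⟨a * b, ?_⟩
    have : x * y - ((a * b : ℤ) : 𝓞 K) = (x - a) * y + a * (y - b) := by push_cast; ring
    rw [this]
    exact dvd_add (ha.mul_right _) (hb.mul_left _)

lemma sum_zeta : ∑ i ∈ Finset.range p, hζ.toInteger ^ i = 0 :=
  (hζ.toInteger_isPrimitiveRoot).geom_sum_eq_zero hp.out.one_lt

/-- explicit principal primes of degree one -/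
lemma exists_principal {q : ℕ} [hq : Fact q.Prime] (r : ℤ)
    (hr : ∑ i ∈ Finset.range p, (r : ZMod q) ^ i = 0)
    {α β γ : 𝓞 K} (h1 : α * β = q) (h2 : α * γ = hζ.toInteger - r)
    (h3 : phi hζ (r : ZMod q) hr α = 0) :
    ∃ P ∈ primesOver (span {(q : ℤ)}) (𝓞 K), Submodule.IsPrincipal P := by
  have hP : RingHom.ker (phi hζ (r : ZMod q) hr).toRingHom = span {α} := by
    apply le_antisymm
    · intro x hx
      obtain ⟨n, hn⟩ := exists_int_sub_dvd hζ r x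
      have hx0 : phi hζ (r : ZMod q) hr x = 0 := hx
      have hα : α ∣ x - n := (Dvd.intro _ h2).trans hn
      have hn0 : ((n : ℤ) : ZMod q) = 0 := by
        obtain ⟨y, hy⟩ := hα
        have := congrArg (phi hζ (r : ZMod q) hr) hy
        rw [map_sub, map_mul, h3, zero_mul, hx0, zero_sub, neg_eq_zero, map_intCast] at this
        exact this
      rw [ZMod.intCast_zmod_eq_zero_iff_dvd] at hn0
      obtain ⟨k, hk⟩ := hn0
      rw [mem_span_singleton]
      have : α ∣ (n : 𝓞 K) := by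
        rw [hk]; push_cast
        exact (Dvd.intro _ h1).mul_right _
      simpa using dvd_add hα this
    · rw [span_singleton_le_iff_mem]
      exact h3
  refine ⟨RingHom.ker (phi hζ (r : ZMod q) hr).toRingHom, ⟨RingHom.ker_isPrime _, ⟨?_⟩⟩, ?_⟩
  · ext x
    rw [mem_span_singleton, Ideal.mem_comap, RingHom.mem_ker]
    change (q : ℤ) ∣ x ↔ phi hζ (r : ZMod q) hr (algebraMap ℤ (𝓞 K) x) = 0
    rw [AlgHom.commutes, ← ZMod.intCast_zmod_eq_zero_iff_dvd]
    rfl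
  · rw [hP]
    exact ⟨⟨α, rfl⟩⟩

/-- the automorphism `ζ ↦ ζ^a`. -/
noncomputable def autPow (a : ℕ) (ha : a.Coprime p) : 𝓞 K ≃ₐ[ℤ] 𝓞 K :=
  hζ.integralPowerBasis.equivOfMinpoly (hζ.pow_of_coprime a ha).integralPowerBasis (by
    rw [hζ.integralPowerBasis_gen, (hζ.pow_of_coprime a ha).integralPowerBasis_gen,
      minpoly_toInteger, minpoly_toInteger])

lemma autPow_zeta (a : ℕ) (ha : a.Coprime p) :
    autPow hζ a ha hζ.toInteger = hζ.toInteger ^ a := by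
  have := hζ.integralPowerBasis.equivOfMinpoly_gen
    (pb' := (hζ.pow_of_coprime a ha).integralPowerBasis) (by
    rw [hζ.integralPowerBasis_gen, (hζ.pow_of_coprime a ha).integralPowerBasis_gen,
      minpoly_toInteger, minpoly_toInteger])
  have h2 := this.trans (hζ.pow_of_coprime a ha).integralPowerBasis_gen
  conv_lhs => rw [← hζ.integralPowerBasis_gen]
  exact h2

lemma norm_autPow (a : ℕ) (ha : a.Coprime p) (x : 𝓞 K) :
    Algebra.norm ℤ (autPow hζ a ha x) = Algebra.norm ℤ x :=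
  Algebra.norm_eq_of_algEquiv (autPow hζ a ha) x

/-- if an element has norm `q^f` it generates a prime above `q`. -/
lemma exists_principal_of_norm {q : ℕ} [hq : Fact q.Prime] (hqp : ¬ q ∣ p) {α : 𝓞 K}
    (hα : (Algebra.norm ℤ α).natAbs = q ^ (orderOf (q : ZMod p))) :
    ∃ P ∈ primesOver (span {(q : ℤ)}) (𝓞 K), Submodule.IsPrincipal P := by
  have : NeZero p := ⟨hp.out.ne_zero⟩
  have habs : absNorm (span {α}) = q ^ (orderOf (q : ZMod p)) := by
    rw [absNorm_span_singleton, hα]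
  have hfin : 0 < orderOf (q : ZMod p) := by
    have hu : IsUnit (q : ZMod p) := by
      rw [isUnit_iff_ne_zero]
      intro h0
      rw [ZMod.natCast_eq_zero_iff] at h0
      exact hqp (((Nat.prime_dvd_prime_iff_eq hp.out hq.out).1 h0) ▸ dvd_rfl)
    obtain ⟨u, hu⟩ := hu
    rw [← hu, orderOf_units]
    exact orderOf_pos u
  have hne : span {α} ≠ ⊤ := by
    intro h
    rw [h, absNorm_top] at habs
    exact (Nat.one_lt_pow hfin.ne' hq.out.one_lt).ne habs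
  obtain ⟨P, hPmax, hPle⟩ := exists_le_maximal _ hne
  have hqP : (q : 𝓞 K) ∈ P := by
    have h1 := hPle (absNorm_mem (span {α}))
    rw [habs] at h1
    push_cast at h1
    exact hPmax.isPrime.mem_of_pow_mem _ h1
  have := hPmax.isPrime
  have hlies : P.LiesOver (span {(q : ℤ)}) := by
    rw [liesOver_iff]
    have hqm : (span {(q : ℤ)}).IsMaximal := Int.ideal_span_isMaximal_of_prime q
    refine IsMaximal.eq_of_le hqm (IsPrime.ne_top') ?_
    rw [span_singleton_le_iff_mem, mem_comap, algebraMap_int_eq, map_natCast]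
    exact hqP
  have hnormP : absNorm P = q ^ (orderOf (q : ZMod p)) := by
    rw [← IsCyclotomicExtension.Rat.inertiaDeg_eq_of_not_dvd q K P hqp]
    exact (pow_inertiaDeg q P).symm
  have hdvd : P ∣ span {α} := dvd_iff_le.2 hPle
  obtain ⟨J, hJ⟩ := hdvd
  have hJn : absNorm J = 1 := by
    have h5 := congrArg absNorm hJ
    rw [map_mul, habs, hnormP] at h5
    have h6 : 0 < q ^ (orderOf (q : ZMod p)) := Nat.pow_pos hq.out.pos
    exact (Nat.eq_of_mul_eq_mul_left h6 (by rw [mul_one]; exact h5)).symm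
  rw [absNorm_eq_one_iff] at hJn
  rw [hJn, mul_top] at hJ
  exact ⟨P, ⟨inferInstance, hlies⟩, hJ ▸ ⟨⟨α, rfl⟩⟩⟩

end general


lemma alg11_23_1 {A : Type*} [CommRing A] (z : A) (h : ∑ i ∈ Finset.range 11, z ^ i = 0) :
    (1 + 1*z + 1*z^3) * ((-2) + (-14)*z + (-17)*z^2 + (-12)*z^3 + (-5)*z^4 + (-9)*z^5 + (-10)*z^6 + (-16)*z^7 + (-6)*z^8 + (-15)*z^9) = 23 := by
  simp only [Finset.sum_range_succ, Finset.sum_range_zero] at h
  linear_combination ((-25) + 9*z + (-15)*z^2) * h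

lemma alg11_23_2 {A : Type*} [CommRing A] (z : A) (h : ∑ i ∈ Finset.range 11, z ^ i = 0) :
    (1 + 1*z + 1*z^3) * (1 + 3*z + 3*z^2 + 2*z^3 + 1*z^4 + 2*z^5 + 2*z^6 + 3*z^7 + 1*z^8 + 3*z^9) = z - (4) := by
  simp only [Finset.sum_range_succ, Finset.sum_range_zero] at h
  linear_combination (5 + (-2)*z + 3*z^2) * h

lemma hr11_23 : ∑ i ∈ Finset.range 11, (((4 : ℤ)) : ZMod 23) ^ i = 0 := by decide +kernel

lemma hf11_23 : 1 + 1*((4 : ℤ) : ZMod 23) + 1*((4 : ℤ) : ZMod 23)^3 = 0 := by decide +kernel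

lemma principal11_23 [Fact (Nat.Prime 11)] {K : Type*} [Field K] [NumberField K]
    [IsCyclotomicExtension {11} ℚ K] {ζ : K} (hζ : IsPrimitiveRoot ζ 11) :
    ∃ P ∈ primesOver (span {((23 : ℕ) : ℤ)}) (𝓞 K), Submodule.IsPrincipal P := by
  have : Fact (Nat.Prime 23) := ⟨by norm_num⟩
  refine exists_principal hζ (q := 23) (4) hr11_23
    (α := 1 + 1*hζ.toInteger + 1*hζ.toInteger^3)
    (β := (-2) + (-14)*hζ.toInteger + (-17)*hζ.toInteger^2 + (-12)*hζ.toInteger^3 + (-5)*hζ.toInteger^4 + (-9)*hζ.toInteger^5 + (-10)*hζ.toInteger^6 + (-16)*hζ.toInteger^7 + (-6)*hζ.toInteger^8 + (-15)*hζ.toInteger^9)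
    (γ := 1 + 3*hζ.toInteger + 3*hζ.toInteger^2 + 2*hζ.toInteger^3 + 1*hζ.toInteger^4 + 2*hζ.toInteger^5 + 2*hζ.toInteger^6 + 3*hζ.toInteger^7 + 1*hζ.toInteger^8 + 3*hζ.toInteger^9) ?_ ?_ ?_
  · have := alg11_23_1 hζ.toInteger (sum_zeta hζ)
    exact_mod_cast this
  · have := alg11_23_2 hζ.toInteger (sum_zeta hζ)
    exact_mod_cast this
  · simp only [map_add, map_mul, map_pow, map_neg, map_one, phi_zeta]
    exact hf11_23


lemma alg13_53_1 {A : Type*} [CommRing A] (z : A) (h : ∑ i ∈ Finset.range 13, z ^ i = 0) :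
    (1 + 1*z + 1*z^3) * (1 + (-24)*z + (-35)*z^2 + (-25)*z^3 + (-10)*z^4 + (-14)*z^5 + (-20)*z^6 + (-29)*z^7 + (-16)*z^8 + (-23)*z^9 + (-7)*z^10 + (-36)*z^11) = 53 := by
  simp only [Finset.sum_range_succ, Finset.sum_range_zero] at h
  linear_combination ((-52) + 29*z + (-36)*z^2) * h

lemma alg13_53_2 {A : Type*} [CommRing A] (z : A) (h : ∑ i ∈ Finset.range 13, z ^ i = 0) :
    (1 + 1*z + 1*z^3) * (1 + (-7)*z + (-11)*z^2 + (-8)*z^3 + (-3)*z^4 + (-4)*z^5 + (-6)*z^6 + (-9)*z^7 + (-5)*z^8 + (-7)*z^9 + (-2)*z^10 + (-11)*z^11) = z - (-17) := by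
  simp only [Finset.sum_range_succ, Finset.sum_range_zero] at h
  linear_combination ((-16) + 9*z + (-11)*z^2) * h

lemma hr13_53 : ∑ i ∈ Finset.range 13, (((-17 : ℤ)) : ZMod 53) ^ i = 0 := by decide +kernel

lemma hf13_53 : 1 + 1*((-17 : ℤ) : ZMod 53) + 1*((-17 : ℤ) : ZMod 53)^3 = 0 := by decide +kernel

lemma principal13_53 [Fact (Nat.Prime 13)] {K : Type*} [Field K] [NumberField K]
    [IsCyclotomicExtension {13} ℚ K] {ζ : K} (hζ : IsPrimitiveRoot ζ 13) :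
    ∃ P ∈ primesOver (span {((53 : ℕ) : ℤ)}) (𝓞 K), Submodule.IsPrincipal P := by
  have : Fact (Nat.Prime 53) := ⟨by norm_num⟩
  refine exists_principal hζ (q := 53) (-17) hr13_53
    (α := 1 + 1*hζ.toInteger + 1*hζ.toInteger^3)
    (β := 1 + (-24)*hζ.toInteger + (-35)*hζ.toInteger^2 + (-25)*hζ.toInteger^3 + (-10)*hζ.toInteger^4 + (-14)*hζ.toInteger^5 + (-20)*hζ.toInteger^6 + (-29)*hζ.toInteger^7 + (-16)*hζ.toInteger^8 + (-23)*hζ.toInteger^9 + (-7)*hζ.toInteger^10 + (-36)*hζ.toInteger^11)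
    (γ := 1 + (-7)*hζ.toInteger + (-11)*hζ.toInteger^2 + (-8)*hζ.toInteger^3 + (-3)*hζ.toInteger^4 + (-4)*hζ.toInteger^5 + (-6)*hζ.toInteger^6 + (-9)*hζ.toInteger^7 + (-5)*hζ.toInteger^8 + (-7)*hζ.toInteger^9 + (-2)*hζ.toInteger^10 + (-11)*hζ.toInteger^11) ?_ ?_ ?_
  · have := alg13_53_1 hζ.toInteger (sum_zeta hζ)
    exact_mod_cast this
  · have := alg13_53_2 hζ.toInteger (sum_zeta hζ)
    exact_mod_cast this
  · simp only [map_add, map_mul, map_pow, map_neg, map_one, phi_zeta]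
    exact hf13_53


lemma alg13_131_1 {A : Type*} [CommRing A] (z : A) (h : ∑ i ∈ Finset.range 13, z ^ i = 0) :
    (1 + (-1)*z + (-1)*z^3) * (111 + 78*z + 17*z^2 + 67*z^3 + 84*z^4 + 40*z^5 + 46*z^6 + 69*z^7 + 48*z^8 + 33*z^9 + 41*z^10 + 28*z^11) = 131 := by
  simp only [Finset.sum_range_succ, Finset.sum_range_zero] at h
  linear_combination ((-20) + (-13)*z + (-28)*z^2) * h

lemma alg13_131_2 {A : Type*} [CommRing A] (z : A) (h : ∑ i ∈ Finset.range 13, z ^ i = 0) :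
    (1 + (-1)*z + (-1)*z^3) * (43 + 31*z + 7*z^2 + 26*z^3 + 33*z^4 + 16*z^5 + 18*z^6 + 27*z^7 + 19*z^8 + 13*z^9 + 16*z^10 + 11*z^11) = z - (-51) := by
  simp only [Finset.sum_range_succ, Finset.sum_range_zero] at h
  linear_combination ((-8) + (-5)*z + (-11)*z^2) * h

lemma hr13_131 : ∑ i ∈ Finset.range 13, (((-51 : ℤ)) : ZMod 131) ^ i = 0 := by decide +kernel

lemma hf13_131 : 1 + (-1)*((-51 : ℤ) : ZMod 131) + (-1)*((-51 : ℤ) : ZMod 131)^3 = 0 := by decide +kernel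

lemma principal13_131 [Fact (Nat.Prime 13)] {K : Type*} [Field K] [NumberField K]
    [IsCyclotomicExtension {13} ℚ K] {ζ : K} (hζ : IsPrimitiveRoot ζ 13) :
    ∃ P ∈ primesOver (span {((131 : ℕ) : ℤ)}) (𝓞 K), Submodule.IsPrincipal P := by
  have : Fact (Nat.Prime 131) := ⟨by norm_num⟩
  refine exists_principal hζ (q := 131) (-51) hr13_131
    (α := 1 + (-1)*hζ.toInteger + (-1)*hζ.toInteger^3)
    (β := 111 + 78*hζ.toInteger + 17*hζ.toInteger^2 + 67*hζ.toInteger^3 + 84*hζ.toInteger^4 + 40*hζ.toInteger^5 + 46*hζ.toInteger^6 + 69*hζ.toInteger^7 + 48*hζ.toInteger^8 + 33*hζ.toInteger^9 + 41*hζ.toInteger^10 + 28*hζ.toInteger^11)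
    (γ := 43 + 31*hζ.toInteger + 7*hζ.toInteger^2 + 26*hζ.toInteger^3 + 33*hζ.toInteger^4 + 16*hζ.toInteger^5 + 18*hζ.toInteger^6 + 27*hζ.toInteger^7 + 19*hζ.toInteger^8 + 13*hζ.toInteger^9 + 16*hζ.toInteger^10 + 11*hζ.toInteger^11) ?_ ?_ ?_
  · have := alg13_131_1 hζ.toInteger (sum_zeta hζ)
    exact_mod_cast this
  · have := alg13_131_2 hζ.toInteger (sum_zeta hζ)
    exact_mod_cast this
  · simp only [map_add, map_mul, map_pow, map_neg, map_one, phi_zeta]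
    exact hf13_131


lemma alg13_79_1 {A : Type*} [CommRing A] (z : A) (h : ∑ i ∈ Finset.range 13, z ^ i = 0) :
    (1 + 1*z + (-1)*z^4) * (24 + (-25)*z + (-27)*z^2 + 10*z^3 + (-3)*z^4 + (-39)*z^5 + (-5)*z^6 + (-2)*z^7 + (-18)*z^8 + (-38)*z^9 + 16*z^10 + (-35)*z^11) = 79 := by
  simp only [Finset.sum_range_succ, Finset.sum_range_zero] at h
  linear_combination ((-55) + 54*z + (-51)*z^2 + 35*z^3) * h

lemma alg13_79_2 {A : Type*} [CommRing A] (z : A) (h : ∑ i ∈ Finset.range 13, z ^ i = 0) :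
    (1 + 1*z + (-1)*z^4) * (5 + (-4)*z + (-5)*z^2 + 2*z^3 + (-7)*z^5 + (-1)*z^6 + (-3)*z^8 + (-7)*z^9 + 3*z^10 + (-6)*z^11) = z - (-15) := by
  simp only [Finset.sum_range_succ, Finset.sum_range_zero] at h
  linear_combination ((-10) + 10*z + (-9)*z^2 + 6*z^3) * h

lemma hr13_79 : ∑ i ∈ Finset.range 13, (((-15 : ℤ)) : ZMod 79) ^ i = 0 := by decide +kernel

lemma hf13_79 : 1 + 1*((-15 : ℤ) : ZMod 79) + (-1)*((-15 : ℤ) : ZMod 79)^4 = 0 := by decide +kernel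

lemma principal13_79 [Fact (Nat.Prime 13)] {K : Type*} [Field K] [NumberField K]
    [IsCyclotomicExtension {13} ℚ K] {ζ : K} (hζ : IsPrimitiveRoot ζ 13) :
    ∃ P ∈ primesOver (span {((79 : ℕ) : ℤ)}) (𝓞 K), Submodule.IsPrincipal P := by
  have : Fact (Nat.Prime 79) := ⟨by norm_num⟩
  refine exists_principal hζ (q := 79) (-15) hr13_79
    (α := 1 + 1*hζ.toInteger + (-1)*hζ.toInteger^4)
    (β := 24 + (-25)*hζ.toInteger + (-27)*hζ.toInteger^2 + 10*hζ.toInteger^3 + (-3)*hζ.toInteger^4 + (-39)*hζ.toInteger^5 + (-5)*hζ.toInteger^6 + (-2)*hζ.toInteger^7 + (-18)*hζ.toInteger^8 + (-38)*hζ.toInteger^9 + 16*hζ.toInteger^10 + (-35)*hζ.toInteger^11)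
    (γ := 5 + (-4)*hζ.toInteger + (-5)*hζ.toInteger^2 + 2*hζ.toInteger^3 + (-7)*hζ.toInteger^5 + (-1)*hζ.toInteger^6 + (-3)*hζ.toInteger^8 + (-7)*hζ.toInteger^9 + 3*hζ.toInteger^10 + (-6)*hζ.toInteger^11) ?_ ?_ ?_
  · have := alg13_79_1 hζ.toInteger (sum_zeta hζ)
    exact_mod_cast this
  · have := alg13_79_2 hζ.toInteger (sum_zeta hζ)
    exact_mod_cast this
  · simp only [map_add, map_mul, map_pow, map_neg, map_one, phi_zeta]
    exact hf13_79


lemma alg13_157_1 {A : Type*} [CommRing A] (z : A) (h : ∑ i ∈ Finset.range 13, z ^ i = 0) :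
    (1 + (-1)*z + 1*z^2 + 1*z^4) * (89 + 86*z + 42*z^2 + 77*z^3 + 67*z^4 + 25*z^5 + 37*z^6 + 56*z^7 + 73*z^8 + 113*z^9 + 124*z^10 + 76*z^11) = 157 := by
  simp only [Finset.sum_range_succ, Finset.sum_range_zero] at h
  linear_combination ((-68) + 65*z + 48*z^2 + 76*z^3) * h

lemma alg13_157_2 {A : Type*} [CommRing A] (z : A) (h : ∑ i ∈ Finset.range 13, z ^ i = 0) :
    (1 + (-1)*z + 1*z^2 + 1*z^4) * ((-43) + (-41)*z + (-20)*z^2 + (-37)*z^3 + (-32)*z^4 + (-12)*z^5 + (-18)*z^6 + (-27)*z^7 + (-35)*z^8 + (-54)*z^9 + (-59)*z^10 + (-36)*z^11) = z - (75) := by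
  simp only [Finset.sum_range_succ, Finset.sum_range_zero] at h
  linear_combination (32 + (-31)*z + (-23)*z^2 + (-36)*z^3) * h

lemma hr13_157 : ∑ i ∈ Finset.range 13, (((75 : ℤ)) : ZMod 157) ^ i = 0 := by decide +kernel

lemma hf13_157 : 1 + (-1)*((75 : ℤ) : ZMod 157) + 1*((75 : ℤ) : ZMod 157)^2 + 1*((75 : ℤ) : ZMod 157)^4 = 0 := by decide +kernel

lemma principal13_157 [Fact (Nat.Prime 13)] {K : Type*} [Field K] [NumberField K]
    [IsCyclotomicExtension {13} ℚ K] {ζ : K} (hζ : IsPrimitiveRoot ζ 13) :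
    ∃ P ∈ primesOver (span {((157 : ℕ) : ℤ)}) (𝓞 K), Submodule.IsPrincipal P := by
  have : Fact (Nat.Prime 157) := ⟨by norm_num⟩
  refine exists_principal hζ (q := 157) (75) hr13_157
    (α := 1 + (-1)*hζ.toInteger + 1*hζ.toInteger^2 + 1*hζ.toInteger^4)
    (β := 89 + 86*hζ.toInteger + 42*hζ.toInteger^2 + 77*hζ.toInteger^3 + 67*hζ.toInteger^4 + 25*hζ.toInteger^5 + 37*hζ.toInteger^6 + 56*hζ.toInteger^7 + 73*hζ.toInteger^8 + 113*hζ.toInteger^9 + 124*hζ.toInteger^10 + 76*hζ.toInteger^11)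
    (γ := (-43) + (-41)*hζ.toInteger + (-20)*hζ.toInteger^2 + (-37)*hζ.toInteger^3 + (-32)*hζ.toInteger^4 + (-12)*hζ.toInteger^5 + (-18)*hζ.toInteger^6 + (-27)*hζ.toInteger^7 + (-35)*hζ.toInteger^8 + (-54)*hζ.toInteger^9 + (-59)*hζ.toInteger^10 + (-36)*hζ.toInteger^11) ?_ ?_ ?_
  · have := alg13_157_1 hζ.toInteger (sum_zeta hζ)
    exact_mod_cast this
  · have := alg13_157_2 hζ.toInteger (sum_zeta hζ)
    exact_mod_cast this
  · simp only [map_add, map_mul, map_pow, map_neg, map_one, phi_zeta]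
    exact hf13_157

end Fermat.Agent.Kummer
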