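import Mathlib

set_option autoImplicit false

namespace Fermat.Agent.Kummer

open NumberField Finset

theorem kummer_of_matrix {p : ℕ} [Fact p.Prime] {K : Type*} [Field K] [NumberField K] {m : ℕ}
    (hrank : Units.rank K + 1 = m) (f : Additive (𝓞 K)ˣ →+ (Fin m → ZMod p))
    (w : Fin m → (𝓞 K)ˣ) (M N : Matrix (Fin m) (Fin m) (ZMod p))
    (hM : ∀ j, f (Additive.ofMul (w j)) = M j) (hNM : N * M = 1) (u : (𝓞 K)ˣ)
    (hu : f (Additive.ofMul u) = 0) : ∃ v : (𝓞 K)ˣ, v ^ p = u := by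
  classical
  obtain ⟨ω, hω⟩ := IsCyclic.exists_generator (α := Units.torsion K)
  have hgen : ∀ u : (𝓞 K)ˣ, ∃ (a : ℤ) (e : Fin (Units.rank K) → ℤ),
      u = (ω : (𝓞 K)ˣ) ^ a * ∏ i, (Units.fundSystem K i) ^ (e i) := by
    intro u
    obtain ⟨⟨ζ, e⟩, h, -⟩ := Units.exist_unique_eq_mul_prod K u
    obtain ⟨a, ha⟩ := Subgroup.mem_zpowers_iff.1 (hω ζ)
    exact ⟨a, e, by simpa [← ha] using h⟩
  let v : Option (Fin (Units.rank K)) → (Fin m → ZMod p) := fun o =>
    o.elim (f (Additive.ofMul (ω : (𝓞 K)ˣ))) (fun i => f (Additive.ofMul (Units.fundSystem K i)))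
  have hf : ∀ (a : ℤ) (e : Fin (Units.rank K) → ℤ),
      f (Additive.ofMul ((ω : (𝓞 K)ˣ) ^ a * ∏ i, (Units.fundSystem K i) ^ (e i))) =
      (a : ZMod p) • v none + ∑ i, (e i : ZMod p) • v (some i) := by
    intro a e
    rw [ofMul_mul, map_add, ofMul_zpow, map_zsmul, ofMul_prod, map_sum]
    simp only [ofMul_zpow, map_zsmul, Int.cast_smul_eq_zsmul]
    rfl
  have hmem : ∀ u : (𝓞 K)ˣ, f (Additive.ofMul u) ∈ Submodule.span (ZMod p) (Set.range v) := by
    intro u
    obtain ⟨a, e, rfl⟩ := hgen u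
    rw [hf]
    exact Submodule.add_mem _ (Submodule.smul_mem _ _ (Submodule.subset_span ⟨none, rfl⟩))
      (Submodule.sum_mem _ fun i _ => Submodule.smul_mem _ _ (Submodule.subset_span ⟨some i, rfl⟩))
  have htop : ⊤ ≤ Submodule.span (ZMod p) (Set.range v) := by
    rw [← (Pi.basisFun (ZMod p) (Fin m)).span_eq, Submodule.span_le]
    rintro _ ⟨i, rfl⟩
    have h1 : (Pi.basisFun (ZMod p) (Fin m)) i = ∑ j, N i j • M j := by
      ext k
      have := congrFun (congrFun hNM i) k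
      rw [Matrix.mul_apply] at this
      simp only [Pi.basisFun_apply, Finset.sum_apply, Pi.smul_apply, smul_eq_mul, this,
        Matrix.one_apply, Pi.single_apply]
      simp [eq_comm]
    rw [h1]
    refine Submodule.sum_mem _ fun j _ => Submodule.smul_mem _ _ ?_
    rw [← hM j]
    exact hmem _
  have hli : LinearIndependent (ZMod p) v := by
    apply linearIndependent_of_top_le_span_of_card_eq_finrank htop
    simp [hrank]
  obtain ⟨a, e, rfl⟩ := hgen u
  rw [hf] at hu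
  rw [Fintype.linearIndependent_iff] at hli
  have h2 := hli (fun o => o.elim (a : ZMod p) (fun i => (e i : ZMod p))) (by
    rw [Fintype.sum_option]
    exact hu)
  have ha := h2 none
  have he := fun i => h2 (some i)
  simp only [Option.elim_none, Option.elim_some] at ha he
  rw [ZMod.intCast_zmod_eq_zero_iff_dvd] at ha
  simp only [ZMod.intCast_zmod_eq_zero_iff_dvd] at he
  obtain ⟨b, rfl⟩ := ha
  choose g hg using he
  refine ⟨(ω : (𝓞 K)ˣ) ^ b * ∏ i, (Units.fundSystem K i) ^ (g i), ?_⟩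
  rw [mul_pow, ← Finset.prod_pow]
  congr 1
  · rw [← zpow_natCast, ← zpow_mul, mul_comm]
  · refine Finset.prod_congr rfl fun i _ => ?_
    rw [hg i, ← zpow_natCast, ← zpow_mul, mul_comm]

end Fermat.Agent.Kummer
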