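import Mathlib
import Fermat.Agent.Kummer.DLog
import Fermat.Agent.Kummer.Units

set_option autoImplicit false
set_option linter.unusedSectionVars false

namespace Fermat.Agent.Kummer

open NumberField Polynomial

variable {p : ℕ} [hp : Fact p.Prime] {K : Type*} [Field K] [NumberField K]
  [IsCyclotomicExtension {p} ℚ K] {ζ : K} (hζ : IsPrimitiveRoot ζ p)

/-- coordinates of the logarithmic derivative -/
noncomputable def fhom {m : ℕ} (idx : Fin m → ℕ) : Additive (𝓞 K)ˣ →+ (Fin m → ZMod p) where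
  toFun u k := coord p (p - 2) (idx k) (dlog hζ u)
  map_zero' := by ext k; simp
  map_add' u v := by ext k; simp

/-- the unit `1 + ζ + ... + ζ^j`, or `ζ` for `j = 0`. -/
noncomputable def wunit (hp3 : 2 ≤ p) (j : ℕ) : (𝓞 K)ˣ :=
  if h : (j + 1).Coprime p ∧ j ≠ 0 then
    (hζ.toInteger_isPrimitiveRoot.geom_sum_isUnit hp3 h.1).unit
  else (hζ.toInteger_isPrimitiveRoot.isUnit (by omega)).unit

lemma wunit_zero (hp3 : 2 ≤ p) : (wunit hζ hp3 0 : 𝓞 K) = hζ.toInteger := by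
  rw [wunit, dif_neg (by simp)]
  rfl

lemma wunit_pos (hp3 : 2 ≤ p) (j : ℕ) (h0 : j ≠ 0) (h : (j + 1).Coprime p) :
    (wunit hζ hp3 j : 𝓞 K) = ∑ i ∈ Finset.range (j + 1), hζ.toInteger ^ i := by
  rw [wunit, dif_pos ⟨h, h0⟩]
  rfl

lemma dlog_wunit_zero (hp3 : 2 ≤ p) {G : TA p (p - 2)} (hG : 1 = G * (1 + tt p (p - 2))) :
    dlog hζ (Additive.ofMul (wunit hζ hp3 0)) = G := by
  refine dlog_eq hζ (F := 1 + tt p (p - 2)) (F' := 1) ?_ ?_ hG
  · rw [wunit_zero, Psi_zeta, zz_fst]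
  · rw [wunit_zero, Psi_zeta, zz_snd]

lemma dlog_wunit (hp3 : 2 ≤ p) (j : ℕ) (h0 : j ≠ 0) (h : (j + 1).Coprime p)
    {G : TA p (p - 2)}
    (hG : (∑ i ∈ Finset.range (j + 1), (i : TA p (p - 2)) * (1 + tt p (p - 2)) ^ (i - 1)) =
      G * ∑ i ∈ Finset.range (j + 1), (1 + tt p (p - 2)) ^ i) :
    dlog hζ (Additive.ofMul (wunit hζ hp3 j)) = G := by
  refine dlog_eq hζ ?_ ?_ hG
  · rw [wunit_pos hζ hp3 j h0 h, map_sum, TrivSqZeroExt.fst_sum]
    refine Finset.sum_congr rfl fun i _ => ?_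
    rw [map_pow, Psi_zeta, TrivSqZeroExt.fst_pow, zz_fst]
  · rw [wunit_pos hζ hp3 j h0 h, map_sum, TrivSqZeroExt.snd_sum]
    refine Finset.sum_congr rfl fun i _ => ?_
    rw [map_pow, Psi_zeta, TrivSqZeroExt.snd_pow, zz_fst, zz_snd]
    simp

lemma rank_eq (hp5 : 5 ≤ p) : Units.rank K + 1 = (p - 1) / 2 := by
  rw [Units.rank]
  have h1 : Fintype.card (InfinitePlace K) = (p - 1) / 2 := by
    rw [InfinitePlace.card_eq_nrRealPlaces_add_nrComplexPlaces,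
      IsCyclotomicExtension.Rat.nrRealPlaces_eq_zero (n := p) K (by omega),
      IsCyclotomicExtension.Rat.nrComplexPlaces_eq_totient_div_two p K, Nat.totient_prime hp.out,
      zero_add]
  rw [h1]
  omega

theorem kummer_cert (hp5 : 5 ≤ p) {m : ℕ} (hm : (p - 1) / 2 = m) (idx : Fin m → ℕ)
    (M N : Matrix (Fin m) (Fin m) (ZMod p))
    (hM : ∀ j k : Fin m, coord p (p - 2) (idx k)
      (dlog hζ (Additive.ofMul (wunit hζ (by omega) (j : ℕ)))) = M j k) (hNM : N * M = 1)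
    (u : (𝓞 K)ˣ) (hu : ∃ n : ℤ, (p : 𝓞 K) ∣ (u : 𝓞 K) - n) : ∃ v : (𝓞 K)ˣ, v ^ p = u := by
  apply kummer_of_matrix (hm ▸ rank_eq (p := p) hp5) (fhom hζ idx)
    (fun j => wunit hζ (by omega) (j : ℕ)) M N
  · intro j
    ext k
    exact hM j k
  · exact hNM
  · ext k
    change coord p (p - 2) (idx k) (dlog hζ (Additive.ofMul u)) = 0
    rw [dlog_eq_zero hζ hu, map_zero]

end Fermat.Agent.Kummer
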