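import Mathlib

set_option autoImplicit false
set_option linter.unusedSectionVars false

/-!
Abstract second case descent (Kummer) in a principal ideal domain `R` containing a primitive
`p`-th root of unity.
-/

namespace Fermat.Agent.Kummer

open Finset Polynomial

structure Setting (R : Type*) [CommRing R] [IsDomain R] [IsPrincipalIdealRing R] (p : ℕ) (ζ : R) :
    Prop where
  pprime : p.Prime
  pne2 : p ≠ 2
  prim : IsPrimitiveRoot ζ p
  lprime : Prime (ζ - 1)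
  assoc : Associated ((ζ - 1) ^ (p - 1)) (p : R)
  approx : ∀ x : R, ∃ n : ℤ, ζ - 1 ∣ x - n
  intdvd : ∀ n : ℤ, ζ - 1 ∣ (n : R) → (p : ℤ) ∣ n
  kummer : ∀ u : Rˣ, (∃ n : ℤ, (p : R) ∣ (u : R) - n) → ∃ v : Rˣ, v ^ p = u

/-- The solution predicate. -/
def Sol {R : Type*} [CommRing R] (ζ : R) (p m : ℕ) : Prop :=
  ∃ (x y z : R) (ε : Rˣ), ¬ ζ - 1 ∣ y ∧ ¬ ζ - 1 ∣ z ∧
    x ^ p + y ^ p = ε * ((ζ - 1) ^ m * z) ^ p

variable {R : Type*} [CommRing R] [IsDomain R] [IsPrincipalIdealRing R] {p : ℕ} {ζ : R}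

namespace Setting

variable (S : Setting R p ζ)
include S

lemma two_le : 2 ≤ p := S.pprime.two_le

lemma p_dvd_lpow : (p : R) ∣ (ζ - 1) ^ p := by
  have h1 : (ζ - 1) ^ (p - 1) ∣ (ζ - 1) ^ p := pow_dvd_pow _ (by omega)
  exact S.assoc.symm.dvd.trans h1

lemma l_dvd_p : ζ - 1 ∣ (p : R) := by
  have : ζ - 1 ∣ (ζ - 1) ^ (p - 1) := dvd_pow_self _ (by have := S.two_le; omega)
  exact this.trans S.assoc.dvd

lemma pow_sub_pow {x y : R} (h : ζ - 1 ∣ x - y) : (p : R) ∣ x ^ p - y ^ p := by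
  obtain ⟨z, hz⟩ := h
  have hx : x = y + (ζ - 1) * z := by rw [← hz]; ring
  obtain ⟨r, hr⟩ := exists_add_pow_prime_eq S.pprime y ((ζ - 1) * z)
  rw [hx, hr, mul_pow]
  have h1 : y ^ p + (ζ - 1) ^ p * z ^ p + ↑p * y * ((ζ - 1) * z) * r - y ^ p =
    (ζ - 1) ^ p * z ^ p + p * (y * ((ζ - 1) * z) * r) := by ring
  rw [h1]
  exact dvd_add (Dvd.dvd.mul_right S.p_dvd_lpow _) (dvd_mul_right _ _)

lemma l_dvd_root_sub_one {η : R} (hη : η ∈ nthRootsFinset p (1 : R)) : ζ - 1 ∣ η - 1 := by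
  have := S.prim.sub_one_dvd_sub S.pprime hη
    (η₂ := 1) ((Polynomial.mem_nthRootsFinset S.pprime.pos 1).2 (one_pow _))
  exact this

lemma not_dvd_unit (u : Rˣ) : ¬ ζ - 1 ∣ (u : R) := fun h =>
  S.lprime.not_isUnit (isUnit_of_dvd_unit h u.isUnit)

/-- we can make `x, y` coprime -/
lemma exists_coprime {m : ℕ} {x y z : R} {ε : Rˣ} (hy : ¬ ζ - 1 ∣ y) (hz : ¬ ζ - 1 ∣ z)
    (h : x ^ p + y ^ p = ε * ((ζ - 1) ^ m * z) ^ p) :
    ∃ x' y' z' : R, IsCoprime x' y' ∧ ¬ ζ - 1 ∣ y' ∧ ¬ ζ - 1 ∣ z' ∧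
      x' ^ p + y' ^ p = ε * ((ζ - 1) ^ m * z') ^ p := by
  classical
  let _ : GCDMonoid R := IsBezout.toGCDDomain R
  obtain ⟨x', y', hx', hy', hu⟩ := extract_gcd x y
  rw [gcd_isUnit_iff] at hu
  set g := gcd x y with hg
  have hp0 : p ≠ 0 := S.pprime.ne_zero
  have hg0 : g ≠ 0 := by
    intro h0
    rw [h0, zero_mul] at hy'
    exact hy (hy' ▸ dvd_zero _)
  have hlg : ¬ ζ - 1 ∣ g := fun h1 => hy (h1.trans (hy' ▸ dvd_mul_right _ _))
  have h1 : g ^ p ∣ ((ζ - 1) ^ m * z) ^ p := by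
    have : g ^ p ∣ ε * ((ζ - 1) ^ m * z) ^ p := by
      rw [← h, hx', hy', mul_pow, mul_pow, ← mul_add]
      exact dvd_mul_right _ _
    exact (Units.dvd_mul_left).1 this
  have h2 : g ∣ (ζ - 1) ^ m * z := (IsIntegrallyClosed.pow_dvd_pow_iff hp0).1 h1
  have hcop : IsCoprime g ((ζ - 1) ^ m) :=
    (((S.lprime.coprime_iff_not_dvd).2 hlg).symm).pow_right
  obtain ⟨z', hz'⟩ := hcop.dvd_of_dvd_mul_left h2
  refine ⟨x', y', z', hu, fun h3 => hy (h3.trans (hy' ▸ dvd_mul_left _ _)),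
    fun h3 => hz (h3.trans (hz' ▸ dvd_mul_left _ _)), ?_⟩
  have hgp : g ^ p ≠ 0 := pow_ne_zero _ hg0
  apply mul_left_cancel₀ hgp
  calc g ^ p * (x' ^ p + y' ^ p) = (g * x') ^ p + (g * y') ^ p := by ring
    _ = x ^ p + y ^ p := by rw [← hx', ← hy']
    _ = ε * ((ζ - 1) ^ m * z) ^ p := h
    _ = g ^ p * (ε * ((ζ - 1) ^ m * z') ^ p) := by rw [hz']; ring

/-- invertibility mod `p` of integers prime to `p`. -/
lemma exists_int_inv {n : ℤ} (hn : ¬ (p : ℤ) ∣ n) : ∃ k : ℤ, (p : ℤ) ∣ n * k - 1 := by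
  have hcop : IsCoprime (p : ℤ) n :=
    ((Nat.prime_iff_prime_int.1 S.pprime).coprime_iff_not_dvd).2 hn
  obtain ⟨a, b, hab⟩ := hcop
  exact ⟨b, -a, by linear_combination hab⟩

lemma int_dvd {n : ℤ} (h : (p : ℤ) ∣ n) : (p : R) ∣ (n : R) := by
  obtain ⟨k, rfl⟩ := h
  exact ⟨k, by push_cast; ring⟩

/-- the integers `≡` -/
lemma l_dvd_geom (k : ℕ) : ζ - 1 ∣ (∑ i ∈ range k, ζ ^ i) - (k : R) := by
  have h1 : (∑ i ∈ range k, ζ ^ i) - (k : R) = ∑ i ∈ range k, (ζ ^ i - 1) := by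
    rw [Finset.sum_sub_distrib]; simp
  rw [h1]
  exact Finset.dvd_sum fun i _ => by simpa using sub_dvd_pow_sub_pow ζ 1 i

/-- Replace `y` by `ζ^k y` such that `λ² ∣ x + y`. -/
lemma exists_sq_dvd {x y : R} (hy : ¬ ζ - 1 ∣ y) (h : ζ - 1 ∣ x + y) :
    ∃ k : ℕ, (ζ - 1) ^ 2 ∣ x + ζ ^ k * y := by
  obtain ⟨b, hb⟩ := h
  obtain ⟨n₁, hn₁⟩ := S.approx b
  obtain ⟨n₂, hn₂⟩ := S.approx y
  have hn2 : ¬ (p : ℤ) ∣ n₂ := by
    intro h1
    apply hy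
    have := (S.l_dvd_p.trans (S.int_dvd h1))
    have h2 := dvd_add hn₂ this
    simpa using h2
  obtain ⟨k', hk'⟩ := S.exists_int_inv hn2
  -- k ≡ - n₁ k'
  obtain ⟨k, hk⟩ : ∃ k : ℕ, (p : ℤ) ∣ (k : ℤ) + n₁ * k' := by
    refine ⟨((-(n₁ * k')) % p).toNat, ?_⟩
    have hp0 : (p : ℤ) ≠ 0 := by exact_mod_cast S.pprime.ne_zero
    rw [Int.toNat_of_nonneg (Int.emod_nonneg _ hp0)]
    have := Int.emod_add_mul_ediv (-(n₁ * k')) p
    exact ⟨-((-(n₁ * k')) / p), by linear_combination this⟩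
  refine ⟨k, ?_⟩
  have h1 : x + ζ ^ k * y = (ζ - 1) * (b + (∑ i ∈ range k, ζ ^ i) * y) := by
    have := mul_geom_sum ζ k
    linear_combination hb - y * this
  rw [h1, sq]
  apply mul_dvd_mul_left
  have h2 : b + (∑ i ∈ range k, ζ ^ i) * y =
      (b - n₁) + ((∑ i ∈ range k, ζ ^ i) - (k : R)) * y + k * (y - n₂) + ((n₁ + k * n₂ : ℤ) : R) := by
    push_cast; ring
  rw [h2]
  refine dvd_add (dvd_add (dvd_add hn₁ (Dvd.dvd.mul_right (S.l_dvd_geom k) _))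
    (Dvd.dvd.mul_left hn₂ _)) (S.l_dvd_p.trans (S.int_dvd ?_))
  -- p ∣ n₁ + k n₂
  obtain ⟨u, hu⟩ := hk
  obtain ⟨v, hv⟩ := hk'
  exact ⟨u * n₂ - n₁ * v, by linear_combination n₂ * hu - n₁ * hv⟩

/-- The main computation of the descent. -/
lemma step_aux {m : ℕ} {x y z : R} {ε : Rˣ} (hxy : IsCoprime x y)
    (hz : ¬ ζ - 1 ∣ z) (h2 : (ζ - 1) ^ 2 ∣ x + y)
    (h : x ^ p + y ^ p = ε * ((ζ - 1) ^ (m + 1) * z) ^ p) : 1 ≤ m ∧ Sol ζ p m := by
  classical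
  have hp0 : p ≠ 0 := S.pprime.ne_zero
  have hl0 : ζ - 1 ≠ 0 := S.lprime.ne_zero
  set l := ζ - 1 with hl
  set μ := nthRootsFinset p (1 : R) with hμ
  have hmem : ∀ η : R, η ∈ μ ↔ η ^ p = 1 := fun η =>
    Polynomial.mem_nthRootsFinset S.pprime.pos 1
  have h1μ : (1 : R) ∈ μ := (hmem 1).2 (one_pow _)
  have hζμ : ζ ∈ μ := (hmem ζ).2 S.prim.pow_eq_one
  set ζ' := ζ ^ (p - 1) with hζ'
  have hζζ' : ζ * ζ' = 1 := by
    rw [hζ', ← pow_succ', Nat.sub_add_cancel S.pprime.one_le, S.prim.pow_eq_one]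
  have hζ'μ : ζ' ∈ μ := (hmem ζ').2 (by rw [hζ', ← pow_mul, mul_comm, pow_mul,
    S.prim.pow_eq_one, one_pow])
  have hζ1 : ζ ≠ 1 := S.prim.ne_one S.pprime.one_lt
  have hζ'1 : ζ' ≠ 1 := by
    intro h1; rw [h1, mul_one] at hζζ'; exact hζ1 hζζ'
  have hex : ∀ η ∈ μ, ∃ b : R, x + η * y = l * b := by
    intro η hη
    obtain ⟨b, hb⟩ := h2
    obtain ⟨c, hc⟩ := S.l_dvd_root_sub_one hη
    exact ⟨l * b + c * y, by linear_combination hb + y * hc⟩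
  choose! b hb using hex
  have hprod : ∏ η ∈ μ, b η = ε * (l ^ m * z) ^ p := by
    have h3 : l ^ p * ∏ η ∈ μ, b η = l ^ p * (ε * (l ^ m * z) ^ p) := by
      calc l ^ p * ∏ η ∈ μ, b η = ∏ η ∈ μ, (x + η * y) := by
            rw [Finset.prod_congr rfl hb, Finset.prod_mul_distrib, Finset.prod_const,
              hμ, S.prim.card_nthRootsFinset]
        _ = x ^ p + y ^ p :=
            (S.prim.pow_add_pow_eq_prod_add_mul x y (S.pprime.odd_of_ne_two S.pne2)).symm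
        _ = _ := by rw [h]; ring
    exact mul_left_cancel₀ (pow_ne_zero _ hl0) h3
  have hcop : ∀ η₁ ∈ μ, ∀ η₂ ∈ μ, η₁ ≠ η₂ → IsCoprime (b η₁) (b η₂) := by
    intro η₁ h₁ η₂ h₂ hne
    obtain ⟨u, hu⟩ := S.prim.nthRootsFinset_pairwise_associated_sub_one_sub_of_prime S.pprime
      h₁ h₂ hne
    have e1 : b η₁ - b η₂ = u * y := by
      apply mul_left_cancel₀ hl0
      linear_combination hb η₂ h₂ - hb η₁ h₁ - y * hu
    have e2 : η₁ * b η₂ - η₂ * b η₁ = u * x := by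
      apply mul_left_cancel₀ hl0
      linear_combination η₂ * hb η₁ h₁ - η₁ * hb η₂ h₂ - x * hu
    obtain ⟨a, c, hac⟩ := hxy
    refine ⟨(↑u⁻¹ : R) * (c - a * η₂), (↑u⁻¹ : R) * (a * η₁ - c), ?_⟩
    have hu1 : (↑u⁻¹ : R) * u = 1 := Units.inv_mul u
    linear_combination (↑u⁻¹ : R) * (c * e1 + a * e2) + (a * x + c * y) * hu1 + hac
  have hpow : ∀ η ∈ μ, ∃ c : R, Associated (c ^ p) (b η) := by
    intro η hη
    have hc : IsCoprime (b η) (∏ η' ∈ μ.erase η, b η') := by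
      apply IsCoprime.prod_right
      intro η' hη'
      rw [Finset.mem_erase] at hη'
      exact hcop η hη η' hη'.2 (Ne.symm hη'.1)
    refine exists_associated_pow_of_associated_pow_mul (c := l ^ m * z) hc ?_
    rw [Finset.mul_prod_erase _ _ hη, hprod]
    exact (associated_isUnit_mul_right_iff ε.isUnit).2 (Associated.refl _)
  have hb1 : l ∣ b 1 := by
    obtain ⟨c, hc⟩ := h2
    refine ⟨c, mul_left_cancel₀ hl0 ?_⟩
    rw [← hb 1 h1μ]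
    linear_combination hc
  have hbη : ∀ η ∈ μ, η ≠ 1 → ¬ l ∣ b η := by
    intro η hη hne hd
    exact S.lprime.not_isUnit ((hcop η hη 1 h1μ hne).isUnit_of_dvd' hd hb1)
  have hm : 1 ≤ m := by
    by_contra hm0
    have hm0 : m = 0 := by omega
    have h4 : l ∣ ε * (l ^ m * z) ^ p := by
      rw [← hprod]
      exact hb1.trans (Finset.dvd_prod_of_mem b h1μ)
    rw [hm0, pow_zero, one_mul] at h4
    exact hz (S.lprime.dvd_of_dvd_pow ((Units.dvd_mul_left).1 h4))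
  refine ⟨hm, ?_⟩
  obtain ⟨c₁, u₁, hc₁⟩ := hpow 1 h1μ
  obtain ⟨c₂, u₂, hc₂⟩ := hpow ζ hζμ
  obtain ⟨c₃, u₃, hc₃⟩ := hpow ζ' hζ'μ
  -- `l ^ m ∣ c₁`
  have h5 : l ^ m ∣ c₁ := by
    have h6 : (l ^ m) ^ p ∣ b 1 * ∏ η' ∈ μ.erase 1, b η' := by
      rw [Finset.mul_prod_erase _ _ h1μ, hprod, mul_pow, mul_comm, mul_assoc]
      exact dvd_mul_right _ _
    have h7 : IsCoprime ((l ^ m) ^ p) (∏ η' ∈ μ.erase 1, b η') := by
      apply IsCoprime.prod_right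
      intro η' hη'
      rw [Finset.mem_erase] at hη'
      exact (((S.lprime.coprime_iff_not_dvd).2 (hbη η' hη'.2 hη'.1)).pow_left).pow_left
    have h8 : (l ^ m) ^ p ∣ c₁ ^ p := by
      have := h7.dvd_of_dvd_mul_right h6
      rw [← hc₁] at this
      exact (Units.dvd_mul_right).1 this
    exact (IsIntegrallyClosed.pow_dvd_pow_iff hp0).1 h8
  obtain ⟨c₁', hc₁'⟩ := h5
  have hlc₁' : ¬ l ∣ c₁' := by
    rintro ⟨d, hd⟩
    have h9 : (l ^ (m + 1)) ^ p ∣ (l ^ m * z) ^ p := by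
      have h10 : (l ^ (m + 1)) ^ p ∣ b 1 := by
        rw [← hc₁, hc₁', hd]
        exact ⟨d ^ p * u₁, by ring⟩
      have h11 := h10.trans (Finset.dvd_prod_of_mem b h1μ)
      rw [hprod] at h11
      exact (Units.dvd_mul_left).1 h11
    have h12 := (IsIntegrallyClosed.pow_dvd_pow_iff hp0).1 h9
    rw [pow_succ] at h12
    exact hz ((mul_dvd_mul_iff_left (pow_ne_zero m hl0)).1 h12)
  have hlc₂ : ¬ l ∣ c₂ := by
    intro hd
    apply hbη ζ hζμ hζ1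
    rw [← hc₂]
    exact (hd.trans (dvd_pow_self _ hp0)).mul_right _
  have hlc₃ : ¬ l ∣ c₃ := by
    intro hd
    apply hbη ζ' hζ'μ hζ'1
    rw [← hc₃]
    exact (hd.trans (dvd_pow_self _ hp0)).mul_right _
  -- the unit `1 + ζ`
  have hu : IsUnit (1 + ζ) := by
    have := S.prim.geom_sum_isUnit S.two_le (j := 2)
      ((Nat.coprime_primes Nat.prime_two S.pprime).2 S.pne2.symm)
    simpa [Finset.sum_range_succ] using this
  obtain ⟨w, hw⟩ := hu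
  have hζu : IsUnit ζ := IsUnit.of_mul_eq_one _ hζζ'
  obtain ⟨v, hv⟩ := hζu
  have hrel : b ζ + ζ * b ζ' = (1 + ζ) * b 1 := by
    apply mul_left_cancel₀ hl0
    linear_combination (1 + ζ) * hb 1 h1μ - hb ζ hζμ - ζ * hb ζ' hζ'μ + y * hζζ'
  set δ : Rˣ := v * u₃ * u₂⁻¹ with hδ
  set δ' : Rˣ := w * u₁ * u₂⁻¹ with hδ'
  have hu2 : (↑u₂⁻¹ : R) * u₂ = 1 := Units.inv_mul u₂
  have hrel2 : c₂ ^ p + δ * c₃ ^ p = δ' * (l ^ m * c₁') ^ p := by
    rw [hδ, hδ']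
    push_cast
    rw [hv, hw, ← hc₁']
    have hrel' := hrel
    rw [← hc₁, ← hc₂, ← hc₃] at hrel'
    linear_combination (↑u₂⁻¹ : R) * hrel' - c₂ ^ p * hu2
  -- Kummer
  have hk : ∃ n : ℤ, (p : R) ∣ (δ : R) - n := by
    obtain ⟨n₂, hn₂⟩ := S.approx c₂
    obtain ⟨n₃, hn₃⟩ := S.approx c₃
    have hn3 : ¬ (p : ℤ) ∣ n₃ := by
      intro h1
      apply hlc₃
      have := (S.l_dvd_p.trans (S.int_dvd h1))
      have h2 := dvd_add hn₃ this
      simpa using h2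
    obtain ⟨k, hk⟩ := S.exists_int_inv hn3
    have hk' : (p : ℤ) ∣ (n₃ * k) ^ p - 1 := by
      have := sub_dvd_pow_sub_pow (n₃ * k) 1 p
      rw [one_pow] at this
      exact hk.trans this
    obtain ⟨A, hA⟩ := S.pow_sub_pow hn₂
    obtain ⟨B, hB⟩ := S.pow_sub_pow hn₃
    obtain ⟨C, hC⟩ := S.int_dvd (R := R) hk'
    obtain ⟨D, hD⟩ : (p : R) ∣ δ' * (l ^ m * c₁') ^ p := by
      rw [mul_pow, ← pow_mul]
      refine Dvd.dvd.mul_left (Dvd.dvd.mul_right (S.p_dvd_lpow.trans ?_) _) _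
      exact pow_dvd_pow _ (Nat.le_mul_of_pos_left p hm)
    refine ⟨-(n₂ * k) ^ p, ?_⟩
    push_cast at hA hB hC ⊢
    rw [mul_pow] at hC ⊢
    -- δ * (n₃ k)^p ≡ δ
    refine ⟨-δ * C + k ^ p * (D - A - δ * B), ?_⟩
    linear_combination k ^ p * (hrel2 + hD - hA - δ * hB) - δ * hC
  obtain ⟨θ, hθ⟩ := S.kummer δ hk
  refine ⟨c₂, θ * c₃, c₁', δ', ?_, hlc₁', ?_⟩
  · intro hd
    exact hlc₃ ((Units.dvd_mul_left).1 hd)
  · rw [← hrel2, ← hθ]
    push_cast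
    ring

theorem not_sol (m : ℕ) (hm : 1 ≤ m) : ¬ Sol ζ p m := by
  induction m with
  | zero => omega
  | succ m ih =>
    rintro ⟨x, y, z, ε, hy, hz, h⟩
    obtain ⟨x, y, z, hxy, hy, hz, h⟩ := S.exists_coprime hy hz h
    have hp0 : p ≠ 0 := S.pprime.ne_zero
    have h1 : ζ - 1 ∣ x + y := by
      obtain ⟨r, hr⟩ := exists_add_pow_prime_eq S.pprime x y
      apply S.lprime.dvd_of_dvd_pow (n := p)
      rw [hr, h]
      refine dvd_add (Dvd.dvd.mul_left ?_ _) ?_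
      · exact (Dvd.intro _ (by rw [pow_succ' (ζ - 1) m, mul_assoc])).trans
          (dvd_pow_self ((ζ - 1) ^ (m + 1) * z) hp0)
      · exact (((S.l_dvd_p.mul_right _).mul_right _).mul_right _)
    obtain ⟨k, hk⟩ := S.exists_sq_dvd hy h1
    have hζu : IsUnit (ζ ^ k) := by
      have : ζ ^ k * ζ ^ (k * (p - 1)) = 1 := by
        have h5 : k + k * (p - 1) = p * k := by
          obtain ⟨q, rfl⟩ : ∃ q, p = q + 1 := ⟨p - 1, by have := S.two_le; omega⟩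
          simp only [Nat.add_sub_cancel]; ring
        rw [← pow_add, h5, pow_mul, S.prim.pow_eq_one, one_pow]
      exact IsUnit.of_mul_eq_one _ this
    have h3 : (x ^ p + (ζ ^ k * y) ^ p) = ε * ((ζ - 1) ^ (m + 1) * z) ^ p := by
      rw [← h, mul_pow, ← pow_mul, mul_comm k p, pow_mul, S.prim.pow_eq_one, one_pow, one_mul]
    have hxy' : IsCoprime x (ζ ^ k * y) := (isCoprime_mul_unit_left_right hζu x y).2 hxy
    obtain ⟨hm1, hs⟩ := S.step_aux hxy' hz hk h3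
    exact ih hm1 hs

theorem caseII [CharZero R] {a b c : ℤ} (h : a ^ p + b ^ p = c ^ p) (hab : IsCoprime a b)
    (hc : (p : ℤ) ∣ c) (hc0 : c ≠ 0) : False := by
  have hp0 : p ≠ 0 := S.pprime.ne_zero
  have hpi : Prime (p : ℤ) := Nat.prime_iff_prime_int.1 S.pprime
  obtain ⟨c', hcc, hc'⟩ := (Int.finiteMultiplicity_iff.2 ⟨by simpa using S.pprime.ne_one, hc0⟩ :
      FiniteMultiplicity (p : ℤ) c).exists_eq_pow_mul_and_not_dvd
  set k := multiplicity (p : ℤ) c with hkdef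
  have hk : 1 ≤ k := by
    by_contra hk
    have hk : k = 0 := by omega
    rw [hk, pow_zero, one_mul] at hcc
    exact hc' (hcc ▸ hc)
  have hb : ¬ (p : ℤ) ∣ b := by
    intro hb
    have ha : (p : ℤ) ∣ a := by
      apply hpi.dvd_of_dvd_pow (n := p)
      have : a ^ p = c ^ p - b ^ p := by rw [← h]; ring
      rw [this]
      exact dvd_sub (hc.trans (dvd_pow_self _ hp0)) (hb.trans (dvd_pow_self _ hp0))
    exact hpi.not_isUnit (hab.isUnit_of_dvd' ha hb)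
  obtain ⟨u, hu⟩ := S.assoc
  apply S.not_sol ((p - 1) * k) (Nat.mul_pos (by have := S.two_le; omega) hk)
  refine ⟨a, b, c', (u ^ k) ^ p, fun h1 => hb (S.intdvd b h1), fun h1 => hc' (S.intdvd c' h1), ?_⟩
  have h2 : (a : R) ^ p + (b : R) ^ p = (c : R) ^ p := by exact_mod_cast congrArg (Int.cast (R := R)) h
  rw [h2, hcc]
  push_cast
  rw [← hu]
  ring

end Setting

end Fermat.Agent.Kummer
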