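import Mathlib
import Fermat.Agent.Kummer.Cert

set_option autoImplicit false

/-! Kummer's lemma for `p = 5, 7, 11, 13` (generated certificates). -/

namespace Fermat.Agent.Kummer

open NumberField Polynomial

section p5

lemma cert5_0 {A : Type*} [CommRing A] (t : A) (h : t ^ 3 = 0) (hp : (5 : A) = 0) :
    1 = (1 + 4*t + 1*t^2) * (1 + t) := by
  linear_combination (-1) * h + (-1*t - 1*t^2) * hp

lemma cert5_1 {A : Type*} [CommRing A] (t : A) (h : t ^ 3 = 0) (hp : (5 : A) = 0) :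
    (∑ i ∈ Finset.range (1 + 1), (i : A) * (1 + t) ^ (i - 1)) =
      (3 + 1*t + 2*t^2) * ∑ i ∈ Finset.range (1 + 1), (1 + t) ^ i := by
  simp only [Finset.sum_range_succ, Finset.sum_range_zero]
  push_cast
  linear_combination (-2) * h + (-1 - 1*t - 1*t^2) * hp

lemma matid_5 : (!![4, 4; 3, 4] : Matrix (Fin 2) (Fin 2) (ZMod 5)) *
    !![1, 4; 3, 1] = 1 := by decide

theorem kummer_lemma_5 [Fact (Nat.Prime 5)] {K : Type*} [Field K] [NumberField K]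
    [IsCyclotomicExtension {5} ℚ K] {ζ : K} (hζ : IsPrimitiveRoot ζ 5)
    (u : (𝓞 K)ˣ) (hu : ∃ n : ℤ, (((5 : ℕ) : 𝓞 K)) ∣ (u : 𝓞 K) - n) : ∃ v : (𝓞 K)ˣ, v ^ 5 = u := by
  have ht : (tt 5 (5 - 2)) ^ 3 = 0 := tt_pow 5 (5 - 2)
  have hp0 : ((5 : TA 5 (5 - 2))) = 0 := by
    have := p_eq_zero 5 (5 - 2)
    exact_mod_cast this
  refine kummer_cert hζ (by norm_num) (m := 2) (by norm_num) ![0, 1]
    (!![1, 4; 3, 1])
    (!![4, 4; 3, 4]) ?_ matid_5 u hu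
  intro j k
  have hc : ∀ (k' i : ℕ), k' < 3 → coord 5 (5 - 2) k' (tt 5 (5 - 2) ^ i) = if i = k' then 1 else 0 :=
    fun k' i hk => coord_pow 5 (n := 5 - 2) hk i
  have hc0 : ∀ (k' : ℕ), k' < 3 → coord 5 (5 - 2) k' 1 = if 0 = k' then 1 else 0 := by
    intro k' hk
    have := hc k' 0 hk
    rwa [pow_zero] at this
  have hc1 : ∀ (k' : ℕ), k' < 3 → coord 5 (5 - 2) k' (tt 5 (5 - 2)) = if 1 = k' then 1 else 0 := by
    intro k' hk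
    have := hc k' 1 hk
    rwa [pow_one] at this
  have hcc : ∀ (k' c : ℕ) [c.AtLeastTwo] (x : TA 5 (5 - 2)), coord 5 (5 - 2) k' (OfNat.ofNat c * x) =
      OfNat.ofNat c * coord 5 (5 - 2) k' x := fun k' c _ x => coord_natCast_mul 5 k' c x
  have hcc0 : ∀ (k' c : ℕ) [c.AtLeastTwo], k' < 3 → coord 5 (5 - 2) k' (OfNat.ofNat c) =
      OfNat.ofNat c * if 0 = k' then 1 else 0 := by
    intro k' c _ hk
    have := hcc k' c 1
    rwa [mul_one, hc0 k' hk] at this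
  fin_cases j
  · change coord 5 (5 - 2) _ (dlog hζ (Additive.ofMul (wunit hζ _ 0))) = _
    rw [dlog_wunit_zero hζ _ (cert5_0 _ ht hp0)]
    fin_cases k <;> simp [hc, hc0, hc1, hcc, hcc0] <;> decide
  · change coord 5 (5 - 2) _ (dlog hζ (Additive.ofMul (wunit hζ _ 1))) = _
    rw [dlog_wunit hζ _ 1 (by norm_num) (by norm_num) (cert5_1 _ ht hp0)]
    fin_cases k <;> simp [hc, hc0, hc1, hcc, hcc0] <;> decide

end p5

section p7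

lemma cert7_0 {A : Type*} [CommRing A] (t : A) (h : t ^ 5 = 0) (hp : (7 : A) = 0) :
    1 = (1 + 6*t + 1*t^2 + 6*t^3 + 1*t^4) * (1 + t) := by
  linear_combination (-1) * h + (-1*t - 1*t^2 - 1*t^3 - 1*t^4) * hp

lemma cert7_1 {A : Type*} [CommRing A] (t : A) (h : t ^ 5 = 0) (hp : (7 : A) = 0) :
    (∑ i ∈ Finset.range (1 + 1), (i : A) * (1 + t) ^ (i - 1)) =
      (4 + 5*t + 1*t^2 + 3*t^3 + 2*t^4) * ∑ i ∈ Finset.range (1 + 1), (1 + t) ^ i := by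
  simp only [Finset.sum_range_succ, Finset.sum_range_zero]
  push_cast
  linear_combination (-2) * h + (-1 - 2*t - 1*t^2 - 1*t^3 - 1*t^4) * hp

lemma cert7_2 {A : Type*} [CommRing A] (t : A) (h : t ^ 5 = 0) (hp : (7 : A) = 0) :
    (∑ i ∈ Finset.range (2 + 1), (i : A) * (1 + t) ^ (i - 1)) =
      (1 + 2*t + 4*t^3 + 3*t^4) * ∑ i ∈ Finset.range (2 + 1), (1 + t) ^ i := by
  simp only [Finset.sum_range_succ, Finset.sum_range_zero]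
  push_cast
  linear_combination (-13 - 3*t) * h + (-1*t - 1*t^2 - 2*t^3 - 3*t^4) * hp

lemma matid_7 : (!![0, 3, 3; 5, 4, 0; 1, 6, 3] : Matrix (Fin 3) (Fin 3) (ZMod 7)) *
    !![1, 6, 6; 4, 5, 3; 1, 2, 4] = 1 := by decide

theorem kummer_lemma_7 [Fact (Nat.Prime 7)] {K : Type*} [Field K] [NumberField K]
    [IsCyclotomicExtension {7} ℚ K] {ζ : K} (hζ : IsPrimitiveRoot ζ 7)
    (u : (𝓞 K)ˣ) (hu : ∃ n : ℤ, (((7 : ℕ) : 𝓞 K)) ∣ (u : 𝓞 K) - n) : ∃ v : (𝓞 K)ˣ, v ^ 7 = u := by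
  have ht : (tt 7 (7 - 2)) ^ 5 = 0 := tt_pow 7 (7 - 2)
  have hp0 : ((7 : TA 7 (7 - 2))) = 0 := by
    have := p_eq_zero 7 (7 - 2)
    exact_mod_cast this
  refine kummer_cert hζ (by norm_num) (m := 3) (by norm_num) ![0, 1, 3]
    (!![1, 6, 6; 4, 5, 3; 1, 2, 4])
    (!![0, 3, 3; 5, 4, 0; 1, 6, 3]) ?_ matid_7 u hu
  intro j k
  have hc : ∀ (k' i : ℕ), k' < 5 → coord 7 (7 - 2) k' (tt 7 (7 - 2) ^ i) = if i = k' then 1 else 0 :=
    fun k' i hk => coord_pow 7 (n := 7 - 2) hk i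
  have hc0 : ∀ (k' : ℕ), k' < 5 → coord 7 (7 - 2) k' 1 = if 0 = k' then 1 else 0 := by
    intro k' hk
    have := hc k' 0 hk
    rwa [pow_zero] at this
  have hc1 : ∀ (k' : ℕ), k' < 5 → coord 7 (7 - 2) k' (tt 7 (7 - 2)) = if 1 = k' then 1 else 0 := by
    intro k' hk
    have := hc k' 1 hk
    rwa [pow_one] at this
  have hcc : ∀ (k' c : ℕ) [c.AtLeastTwo] (x : TA 7 (7 - 2)), coord 7 (7 - 2) k' (OfNat.ofNat c * x) =
      OfNat.ofNat c * coord 7 (7 - 2) k' x := fun k' c _ x => coord_natCast_mul 7 k' c x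
  have hcc0 : ∀ (k' c : ℕ) [c.AtLeastTwo], k' < 5 → coord 7 (7 - 2) k' (OfNat.ofNat c) =
      OfNat.ofNat c * if 0 = k' then 1 else 0 := by
    intro k' c _ hk
    have := hcc k' c 1
    rwa [mul_one, hc0 k' hk] at this
  fin_cases j
  · change coord 7 (7 - 2) _ (dlog hζ (Additive.ofMul (wunit hζ _ 0))) = _
    rw [dlog_wunit_zero hζ _ (cert7_0 _ ht hp0)]
    fin_cases k <;> simp [hc, hc0, hc1, hcc, hcc0] <;> decide
  · change coord 7 (7 - 2) _ (dlog hζ (Additive.ofMul (wunit hζ _ 1))) = _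
    rw [dlog_wunit hζ _ 1 (by norm_num) (by norm_num) (cert7_1 _ ht hp0)]
    fin_cases k <;> simp [hc, hc0, hc1, hcc, hcc0] <;> decide
  · change coord 7 (7 - 2) _ (dlog hζ (Additive.ofMul (wunit hζ _ 2))) = _
    rw [dlog_wunit hζ _ 2 (by norm_num) (by norm_num) (cert7_2 _ ht hp0)]
    fin_cases k <;> simp [hc, hc0, hc1, hcc, hcc0] <;> decide

end p7

section p11

lemma cert11_0 {A : Type*} [CommRing A] (t : A) (h : t ^ 9 = 0) (hp : (11 : A) = 0) :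
    1 = (1 + 10*t + 1*t^2 + 10*t^3 + 1*t^4 + 10*t^5 + 1*t^6 + 10*t^7 + 1*t^8) * (1 + t) := by
  linear_combination (-1) * h + (-1*t - 1*t^2 - 1*t^3 - 1*t^4 - 1*t^5 - 1*t^6 - 1*t^7 - 1*t^8) * hp

lemma cert11_1 {A : Type*} [CommRing A] (t : A) (h : t ^ 9 = 0) (hp : (11 : A) = 0) :
    (∑ i ∈ Finset.range (1 + 1), (i : A) * (1 + t) ^ (i - 1)) =
      (6 + 8*t + 7*t^2 + 2*t^3 + 10*t^4 + 6*t^5 + 8*t^6 + 7*t^7 + 2*t^8) * ∑ i ∈ Finset.range (1 + 1), (1 + t) ^ i := by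
  simp only [Finset.sum_range_succ, Finset.sum_range_zero]
  push_cast
  linear_combination (-2) * h + (-1 - 2*t - 2*t^2 - 1*t^3 - 2*t^4 - 2*t^5 - 2*t^6 - 2*t^7 - 1*t^8) * hp

lemma cert11_2 {A : Type*} [CommRing A] (t : A) (h : t ^ 9 = 0) (hp : (11 : A) = 0) :
    (∑ i ∈ Finset.range (2 + 1), (i : A) * (1 + t) ^ (i - 1)) =
      (1 + 7*t + 5*t^3 + 6*t^4 + 7*t^5 + 2*t^6 + 3*t^7) * ∑ i ∈ Finset.range (2 + 1), (1 + t) ^ i := by
  simp only [Finset.sum_range_succ, Finset.sum_range_zero]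
  push_cast
  linear_combination (-3) * h + (-2*t - 2*t^2 - 2*t^3 - 3*t^4 - 4*t^5 - 3*t^6 - 2*t^7 - 1*t^8) * hp

lemma cert11_3 {A : Type*} [CommRing A] (t : A) (h : t ^ 9 = 0) (hp : (11 : A) = 0) :
    (∑ i ∈ Finset.range (3 + 1), (i : A) * (1 + t) ^ (i - 1)) =
      (7 + 8*t + 1*t^2 + 8*t^3 + 7*t^4 + 6*t^5 + 4*t^6) * ∑ i ∈ Finset.range (3 + 1), (1 + t) ^ i := by
  simp only [Finset.sum_range_succ, Finset.sum_range_zero]
  push_cast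
  linear_combination (-4) * h + (-2 - 6*t - 7*t^2 - 7*t^3 - 8*t^4 - 9*t^5 - 8*t^6 - 5*t^7 - 2*t^8) * hp

lemma cert11_4 {A : Type*} [CommRing A] (t : A) (h : t ^ 9 = 0) (hp : (11 : A) = 0) :
    (∑ i ∈ Finset.range (4 + 1), (i : A) * (1 + t) ^ (i - 1)) =
      (2 + 10*t^2 + 3*t^3 + 6*t^5 + 5*t^6 + 6*t^7 + 5*t^8) * ∑ i ∈ Finset.range (4 + 1), (1 + t) ^ i := by
  simp only [Finset.sum_range_succ, Finset.sum_range_zero]
  push_cast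
  linear_combination (-141 - 85*t - 31*t^2 - 5*t^3) * h + (-5*t^2 - 11*t^3 - 12*t^4 - 10*t^5 - 10*t^6 - 13*t^7 - 15*t^8) * hp

lemma matid_11 : (!![9, 6, 7, 0, 2; 1, 8, 7, 4, 2; 9, 0, 1, 3, 1; 0, 8, 5, 0, 1; 9, 1, 5, 4, 9] : Matrix (Fin 5) (Fin 5) (ZMod 11)) *
    !![1, 10, 10, 10, 10; 6, 8, 2, 6, 7; 1, 7, 5, 7, 3; 7, 8, 8, 6, 0; 2, 0, 3, 6, 6] = 1 := by decide

theorem kummer_lemma_11 [Fact (Nat.Prime 11)] {K : Type*} [Field K] [NumberField K]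
    [IsCyclotomicExtension {11} ℚ K] {ζ : K} (hζ : IsPrimitiveRoot ζ 11)
    (u : (𝓞 K)ˣ) (hu : ∃ n : ℤ, (((11 : ℕ) : 𝓞 K)) ∣ (u : 𝓞 K) - n) : ∃ v : (𝓞 K)ˣ, v ^ 11 = u := by
  have ht : (tt 11 (11 - 2)) ^ 9 = 0 := tt_pow 11 (11 - 2)
  have hp0 : ((11 : TA 11 (11 - 2))) = 0 := by
    have := p_eq_zero 11 (11 - 2)
    exact_mod_cast this
  refine kummer_cert hζ (by norm_num) (m := 5) (by norm_num) ![0, 1, 3, 5, 7]
    (!![1, 10, 10, 10, 10; 6, 8, 2, 6, 7; 1, 7, 5, 7, 3; 7, 8, 8, 6, 0; 2, 0, 3, 6, 6])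
    (!![9, 6, 7, 0, 2; 1, 8, 7, 4, 2; 9, 0, 1, 3, 1; 0, 8, 5, 0, 1; 9, 1, 5, 4, 9]) ?_ matid_11 u hu
  intro j k
  have hc : ∀ (k' i : ℕ), k' < 9 → coord 11 (11 - 2) k' (tt 11 (11 - 2) ^ i) = if i = k' then 1 else 0 :=
    fun k' i hk => coord_pow 11 (n := 11 - 2) hk i
  have hc0 : ∀ (k' : ℕ), k' < 9 → coord 11 (11 - 2) k' 1 = if 0 = k' then 1 else 0 := by
    intro k' hk
    have := hc k' 0 hk
    rwa [pow_zero] at this
  have hc1 : ∀ (k' : ℕ), k' < 9 → coord 11 (11 - 2) k' (tt 11 (11 - 2)) = if 1 = k' then 1 else 0 := by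
    intro k' hk
    have := hc k' 1 hk
    rwa [pow_one] at this
  have hcc : ∀ (k' c : ℕ) [c.AtLeastTwo] (x : TA 11 (11 - 2)), coord 11 (11 - 2) k' (OfNat.ofNat c * x) =
      OfNat.ofNat c * coord 11 (11 - 2) k' x := fun k' c _ x => coord_natCast_mul 11 k' c x
  have hcc0 : ∀ (k' c : ℕ) [c.AtLeastTwo], k' < 9 → coord 11 (11 - 2) k' (OfNat.ofNat c) =
      OfNat.ofNat c * if 0 = k' then 1 else 0 := by
    intro k' c _ hk
    have := hcc k' c 1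
    rwa [mul_one, hc0 k' hk] at this
  fin_cases j
  · change coord 11 (11 - 2) _ (dlog hζ (Additive.ofMul (wunit hζ _ 0))) = _
    rw [dlog_wunit_zero hζ _ (cert11_0 _ ht hp0)]
    fin_cases k <;> simp [hc, hc0, hc1, hcc, hcc0] <;> decide
  · change coord 11 (11 - 2) _ (dlog hζ (Additive.ofMul (wunit hζ _ 1))) = _
    rw [dlog_wunit hζ _ 1 (by norm_num) (by norm_num) (cert11_1 _ ht hp0)]
    fin_cases k <;> simp [hc, hc0, hc1, hcc, hcc0] <;> decide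
  · change coord 11 (11 - 2) _ (dlog hζ (Additive.ofMul (wunit hζ _ 2))) = _
    rw [dlog_wunit hζ _ 2 (by norm_num) (by norm_num) (cert11_2 _ ht hp0)]
    fin_cases k <;> simp [hc, hc0, hc1, hcc, hcc0] <;> decide
  · change coord 11 (11 - 2) _ (dlog hζ (Additive.ofMul (wunit hζ _ 3))) = _
    rw [dlog_wunit hζ _ 3 (by norm_num) (by norm_num) (cert11_3 _ ht hp0)]
    fin_cases k <;> simp [hc, hc0, hc1, hcc, hcc0] <;> decide
  · change coord 11 (11 - 2) _ (dlog hζ (Additive.ofMul (wunit hζ _ 4))) = _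
    rw [dlog_wunit hζ _ 4 (by norm_num) (by norm_num) (cert11_4 _ ht hp0)]
    fin_cases k <;> simp [hc, hc0, hc1, hcc, hcc0] <;> decide

end p11

section p13

lemma cert13_0 {A : Type*} [CommRing A] (t : A) (h : t ^ 11 = 0) (hp : (13 : A) = 0) :
    1 = (1 + 12*t + 1*t^2 + 12*t^3 + 1*t^4 + 12*t^5 + 1*t^6 + 12*t^7 + 1*t^8 + 12*t^9 + 1*t^10) * (1 + t) := by
  linear_combination (-1) * h + (-1*t - 1*t^2 - 1*t^3 - 1*t^4 - 1*t^5 - 1*t^6 - 1*t^7 - 1*t^8 - 1*t^9 - 1*t^10) * hp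

lemma cert13_1 {A : Type*} [CommRing A] (t : A) (h : t ^ 11 = 0) (hp : (13 : A) = 0) :
    (∑ i ∈ Finset.range (1 + 1), (i : A) * (1 + t) ^ (i - 1)) =
      (7 + 3*t + 5*t^2 + 4*t^3 + 11*t^4 + 1*t^5 + 6*t^6 + 10*t^7 + 8*t^8 + 9*t^9 + 2*t^10) * ∑ i ∈ Finset.range (1 + 1), (1 + t) ^ i := by
  simp only [Finset.sum_range_succ, Finset.sum_range_zero]
  push_cast
  linear_combination (-2) * h + (-1 - 1*t - 1*t^2 - 1*t^3 - 2*t^4 - 1*t^5 - 1*t^6 - 2*t^7 - 2*t^8 - 2*t^9 - 1*t^10) * hp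

lemma cert13_2 {A : Type*} [CommRing A] (t : A) (h : t ^ 11 = 0) (hp : (13 : A) = 0) :
    (∑ i ∈ Finset.range (2 + 1), (i : A) * (1 + t) ^ (i - 1)) =
      (1 + 4*t + 3*t^3 + 10*t^4 + 2*t^5 + 12*t^6 + 9*t^7 + 10*t^9 + 3*t^10) * ∑ i ∈ Finset.range (2 + 1), (1 + t) ^ i := by
  simp only [Finset.sum_range_succ, Finset.sum_range_zero]
  push_cast
  linear_combination (-19 - 3*t) * h + (-1*t - 1*t^2 - 1*t^3 - 3*t^4 - 3*t^5 - 4*t^6 - 5*t^7 - 3*t^8 - 3*t^9 - 3*t^10) * hp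

lemma cert13_3 {A : Type*} [CommRing A] (t : A) (h : t ^ 11 = 0) (hp : (13 : A) = 0) :
    (∑ i ∈ Finset.range (3 + 1), (i : A) * (1 + t) ^ (i - 1)) =
      (8 + 3*t + 11*t^2 + 11*t^3 + 1*t^4 + 1*t^5 + 11*t^6 + 5*t^7 + 4*t^8 + 9*t^9 + 4*t^10) * ∑ i ∈ Finset.range (3 + 1), (1 + t) ^ i := by
  simp only [Finset.sum_range_succ, Finset.sum_range_zero]
  push_cast
  linear_combination (-64 - 25*t - 4*t^2) * h + (-2 - 4*t - 7*t^2 - 10*t^3 - 9*t^4 - 5*t^5 - 5*t^6 - 7*t^7 - 7*t^8 - 7*t^9 - 7*t^10) * hp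

lemma cert13_4 {A : Type*} [CommRing A] (t : A) (h : t ^ 11 = 0) (hp : (13 : A) = 0) :
    (∑ i ∈ Finset.range (4 + 1), (i : A) * (1 + t) ^ (i - 1)) =
      (2 + 12*t^2 + 6*t^3 + 2*t^5 + 11*t^6 + 4*t^7 + 7*t^8 + 3*t^9 + 5*t^10) * ∑ i ∈ Finset.range (4 + 1), (1 + t) ^ i := by
  simp only [Finset.sum_range_succ, Finset.sum_range_zero]
  push_cast
  linear_combination (-119 - 72*t - 28*t^2 - 5*t^3) * h + (-5*t^2 - 12*t^3 - 14*t^4 - 10*t^5 - 9*t^6 - 12*t^7 - 15*t^8 - 14*t^9 - 12*t^10) * hp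

lemma cert13_5 {A : Type*} [CommRing A] (t : A) (h : t ^ 11 = 0) (hp : (13 : A) = 0) :
    (∑ i ∈ Finset.range (5 + 1), (i : A) * (1 + t) ^ (i - 1)) =
      (9 + 8*t + 3*t^2 + 8*t^3 + 9*t^4 + 1*t^5 + 6*t^6 + 7*t^7 + 6*t^8 + 7*t^9 + 6*t^10) * ∑ i ∈ Finset.range (5 + 1), (1 + t) ^ i := by
  simp only [Finset.sum_range_succ, Finset.sum_range_zero]
  push_cast
  linear_combination (-368 - 268*t - 138*t^2 - 43*t^3 - 6*t^4) * h + (-3 - 11*t - 21*t^2 - 28*t^3 - 31*t^4 - 31*t^5 - 29*t^6 - 26*t^7 - 26*t^8 - 29*t^9 - 31*t^10) * hp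

lemma matid_13 : (!![1, 10, 12, 7, 4, 4; 3, 2, 12, 11, 2, 1; 3, 10, 2, 9, 2, 2; 9, 7, 4, 9, 7, 11; 7, 11, 0, 6, 1, 1; 4, 6, 7, 11, 5, 2] : Matrix (Fin 6) (Fin 6) (ZMod 13)) *
    !![1, 12, 12, 12, 12, 12; 7, 3, 4, 1, 10, 9; 1, 4, 3, 2, 9, 10; 8, 3, 11, 1, 5, 9; 2, 0, 6, 2, 4, 3; 9, 8, 8, 1, 7, 7] = 1 := by decide

theorem kummer_lemma_13 [Fact (Nat.Prime 13)] {K : Type*} [Field K] [NumberField K]
    [IsCyclotomicExtension {13} ℚ K] {ζ : K} (hζ : IsPrimitiveRoot ζ 13)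
    (u : (𝓞 K)ˣ) (hu : ∃ n : ℤ, (((13 : ℕ) : 𝓞 K)) ∣ (u : 𝓞 K) - n) : ∃ v : (𝓞 K)ˣ, v ^ 13 = u := by
  have ht : (tt 13 (13 - 2)) ^ 11 = 0 := tt_pow 13 (13 - 2)
  have hp0 : ((13 : TA 13 (13 - 2))) = 0 := by
    have := p_eq_zero 13 (13 - 2)
    exact_mod_cast this
  refine kummer_cert hζ (by norm_num) (m := 6) (by norm_num) ![0, 1, 3, 5, 7, 9]
    (!![1, 12, 12, 12, 12, 12; 7, 3, 4, 1, 10, 9; 1, 4, 3, 2, 9, 10; 8, 3, 11, 1, 5, 9; 2, 0, 6, 2, 4, 3; 9, 8, 8, 1, 7, 7])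
    (!![1, 10, 12, 7, 4, 4; 3, 2, 12, 11, 2, 1; 3, 10, 2, 9, 2, 2; 9, 7, 4, 9, 7, 11; 7, 11, 0, 6, 1, 1; 4, 6, 7, 11, 5, 2]) ?_ matid_13 u hu
  intro j k
  have hc : ∀ (k' i : ℕ), k' < 11 → coord 13 (13 - 2) k' (tt 13 (13 - 2) ^ i) = if i = k' then 1 else 0 :=
    fun k' i hk => coord_pow 13 (n := 13 - 2) hk i
  have hc0 : ∀ (k' : ℕ), k' < 11 → coord 13 (13 - 2) k' 1 = if 0 = k' then 1 else 0 := by
    intro k' hk
    have := hc k' 0 hk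
    rwa [pow_zero] at this
  have hc1 : ∀ (k' : ℕ), k' < 11 → coord 13 (13 - 2) k' (tt 13 (13 - 2)) = if 1 = k' then 1 else 0 := by
    intro k' hk
    have := hc k' 1 hk
    rwa [pow_one] at this
  have hcc : ∀ (k' c : ℕ) [c.AtLeastTwo] (x : TA 13 (13 - 2)), coord 13 (13 - 2) k' (OfNat.ofNat c * x) =
      OfNat.ofNat c * coord 13 (13 - 2) k' x := fun k' c _ x => coord_natCast_mul 13 k' c x
  have hcc0 : ∀ (k' c : ℕ) [c.AtLeastTwo], k' < 11 → coord 13 (13 - 2) k' (OfNat.ofNat c) =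
      OfNat.ofNat c * if 0 = k' then 1 else 0 := by
    intro k' c _ hk
    have := hcc k' c 1
    rwa [mul_one, hc0 k' hk] at this
  fin_cases j
  · change coord 13 (13 - 2) _ (dlog hζ (Additive.ofMul (wunit hζ _ 0))) = _
    rw [dlog_wunit_zero hζ _ (cert13_0 _ ht hp0)]
    fin_cases k <;> simp [hc, hc0, hc1, hcc, hcc0] <;> decide
  · change coord 13 (13 - 2) _ (dlog hζ (Additive.ofMul (wunit hζ _ 1))) = _
    rw [dlog_wunit hζ _ 1 (by norm_num) (by norm_num) (cert13_1 _ ht hp0)]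
    fin_cases k <;> simp [hc, hc0, hc1, hcc, hcc0] <;> decide
  · change coord 13 (13 - 2) _ (dlog hζ (Additive.ofMul (wunit hζ _ 2))) = _
    rw [dlog_wunit hζ _ 2 (by norm_num) (by norm_num) (cert13_2 _ ht hp0)]
    fin_cases k <;> simp [hc, hc0, hc1, hcc, hcc0] <;> decide
  · change coord 13 (13 - 2) _ (dlog hζ (Additive.ofMul (wunit hζ _ 3))) = _
    rw [dlog_wunit hζ _ 3 (by norm_num) (by norm_num) (cert13_3 _ ht hp0)]
    fin_cases k <;> simp [hc, hc0, hc1, hcc, hcc0] <;> decide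
  · change coord 13 (13 - 2) _ (dlog hζ (Additive.ofMul (wunit hζ _ 4))) = _
    rw [dlog_wunit hζ _ 4 (by norm_num) (by norm_num) (cert13_4 _ ht hp0)]
    fin_cases k <;> simp [hc, hc0, hc1, hcc, hcc0] <;> decide
  · change coord 13 (13 - 2) _ (dlog hζ (Additive.ofMul (wunit hζ _ 5))) = _
    rw [dlog_wunit hζ _ 5 (by norm_num) (by norm_num) (cert13_5 _ ht hp0)]
    fin_cases k <;> simp [hc, hc0, hc1, hcc, hcc0] <;> decide

end p13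

end Fermat.Agent.Kummer
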