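import Mathlib
import Fermat.Agent.Kummer.PrincipalPrimes

set_option autoImplicit false

namespace Fermat.Agent.Kummer

open NumberField Polynomial Ideal Real

instance fact_prime_5 : Fact (Nat.Prime 5) := ⟨by norm_num⟩
instance fact_prime_7 : Fact (Nat.Prime 7) := ⟨by norm_num⟩
instance fact_prime_13 : Fact (Nat.Prime 13) := ⟨by norm_num⟩

lemma alg13_3 {A : Type*} [CommRing A] (z : A) (h : ∑ i ∈ Finset.range 13, z ^ i = 0) :
    (z + z ^ 3 + z ^ 9) * (z ^ 2 + z ^ 6 + z ^ 5) * (z ^ 4 + z ^ 12 + z ^ 10) *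
      (z ^ 8 + z ^ 11 + z ^ 7) = 3 := by
  simp only [Finset.sum_range_succ, Finset.sum_range_zero] at h
  linear_combination ((-3) + 3*z + (-3)*z^13 + 4*z^14 + 1*z^17 + 1*z^18 + (-1)*z^19 + 2*z^20 + (-1)*z^21 + 1*z^22 + 1*z^23 + 1*z^26) * h

lemma orderOf_3_13 : orderOf ((3 : ℕ) : ZMod 13) = 3 := by
  rw [orderOf_eq_iff (by norm_num)]
  exact ⟨by decide, by intro m hm h0; interval_cases m <;> decide⟩

lemma principal13_3 {K : Type*} [Field K] [NumberField K]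
    [IsCyclotomicExtension {13} ℚ K] {ζ : K} (hζ : IsPrimitiveRoot ζ 13) :
    ∃ P ∈ primesOver (span {((3 : ℕ) : ℤ)}) (𝓞 K), Submodule.IsPrincipal P := by
  have : Fact (Nat.Prime 3) := ⟨by norm_num⟩
  set z := hζ.toInteger with hz
  have h13 : z ^ 13 = 1 := hζ.toInteger_isPrimitiveRoot.pow_eq_one
  let α : 𝓞 K := z + z ^ 3 + z ^ 9
  have e2 : autPow hζ 2 (by norm_num) α = z ^ 2 + z ^ 6 + z ^ 5 := by
    simp only [α, map_add, map_pow, hz, autPow_zeta]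
    rw [← hz]
    linear_combination z ^ 5 * h13
  have e4 : autPow hζ 4 (by norm_num) α = z ^ 4 + z ^ 12 + z ^ 10 := by
    simp only [α, map_add, map_pow, hz, autPow_zeta]
    rw [← hz]
    linear_combination (z ^ 23 + z ^ 10) * h13
  have e8 : autPow hζ 8 (by norm_num) α = z ^ 8 + z ^ 11 + z ^ 7 := by
    simp only [α, map_add, map_pow, hz, autPow_zeta]
    rw [← hz]
    linear_combination (z ^ 11 + z ^ 59 + z ^ 46 + z ^ 33 + z ^ 20 + z ^ 7) * h13
  have h3 : α * autPow hζ 2 (by norm_num) α * autPow hζ 4 (by norm_num) α *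
      autPow hζ 8 (by norm_num) α = algebraMap ℤ (𝓞 K) 3 := by
    rw [e2, e4, e8, alg13_3 z (sum_zeta hζ)]
    simp
  have hn := congrArg (Algebra.norm ℤ) h3
  rw [map_mul, map_mul, map_mul, norm_autPow, norm_autPow, norm_autPow,
    Algebra.norm_algebraMap, RingOfIntegers.rank, IsCyclotomicExtension.finrank (n := 13) K
    (cyclotomic.irreducible_rat (by norm_num)), Nat.totient_prime (by norm_num)] at hn
  apply exists_principal_of_norm (p := 13) (q := 3) (by norm_num) (α := α)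
  rw [orderOf_3_13]
  have hn' : ((Algebra.norm ℤ α).natAbs) ^ 4 = (3 ^ 3) ^ 4 := by
    have h5 : (Algebra.norm ℤ α) ^ 4 = 3 ^ 12 := by rw [← hn]; ring
    have h6 := congrArg Int.natAbs h5
    rw [Int.natAbs_pow] at h6
    rw [h6]
    norm_num
  exact Nat.pow_left_injective (by norm_num : 4 ≠ 0) hn'

/-- prime of `ℤ[ζ_p]` above `p` -/
lemma principal_p {p : ℕ} [Fact p.Prime] {K : Type*} [Field K] [NumberField K]
    [IsCyclotomicExtension {p} ℚ K] {ζ : K} (hζ : IsPrimitiveRoot ζ p) :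
    ∃ P ∈ primesOver (span {(p : ℤ)}) (𝓞 K), Submodule.IsPrincipal P := by
  obtain ⟨⟨P, hP1, hP2⟩⟩ := (span {(p : ℤ)}).nonempty_primesOver (S := 𝓞 K)
  refine ⟨P, ⟨hP1, hP2⟩, ?_⟩
  rw [IsCyclotomicExtension.Rat.eq_span_zeta_sub_one_of_liesOver' p K hζ P]
  exact ⟨⟨_, rfl⟩⟩

theorem pid_aux {p : ℕ} [hp : Fact p.Prime] {K : Type*} [Field K] [NumberField K]
    [IsCyclotomicExtension {p} ℚ K] {ζ : K} (hζ : IsPrimitiveRoot ζ p) (B : ℕ)
    (hB : (4 / π) ^ (InfinitePlace.nrComplexPlaces K) *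
      ((Module.finrank ℚ K).factorial / (Module.finrank ℚ K : ℝ) ^ (Module.finrank ℚ K) *
        √|(discr K : ℝ)|) < B + 1)
    (hq : ∀ q ≤ B, q.Prime → q ≠ p → (∃ f, 1 ≤ f ∧ q ^ f ≤ B ∧ (q : ZMod p) ^ f = 1) →
      ∃ P ∈ primesOver (span {(q : ℤ)}) (𝓞 K), Submodule.IsPrincipal P) :
    IsPrincipalIdealRing (𝓞 K) := by
  have : IsGalois ℚ K := IsCyclotomicExtension.isGalois {p} ℚ K
  have : NeZero p := ⟨hp.out.ne_zero⟩
  apply RingOfIntegers.isPrincipalIdealRing_of_isPrincipal_of_lt_or_isPrincipal_of_mem_primesOver_of_mem_Icc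
  have hfloor : ⌊(4 / π) ^ (InfinitePlace.nrComplexPlaces K) *
      ((Module.finrank ℚ K).factorial / (Module.finrank ℚ K : ℝ) ^ (Module.finrank ℚ K) *
        √|(discr K : ℝ)|)⌋₊ ≤ B := by
    have h1 := Nat.floor_lt' (a := (4 / π) ^ (InfinitePlace.nrComplexPlaces K) *
      ((Module.finrank ℚ K).factorial / (Module.finrank ℚ K : ℝ) ^ (Module.finrank ℚ K) *
        √|(discr K : ℝ)|)) (n := B + 1) (by omega)
    have h2 := h1.2 (by push_cast; exact hB)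
    omega
  intro q hqI hqp
  have hqB : q ≤ B := (Finset.mem_Icc.1 hqI).2.trans hfloor
  by_cases hqpe : q = p
  · subst hqpe
    obtain ⟨P, hP, hP2⟩ := principal_p hζ
    exact ⟨P, hP, Or.inr hP2⟩
  have hqf : Fact q.Prime := ⟨hqp⟩
  by_cases hex : ∃ f, 1 ≤ f ∧ q ^ f ≤ B ∧ (q : ZMod p) ^ f = 1
  · obtain ⟨P, hP, hP2⟩ := hq q hqB hqp hqpe hex
    exact ⟨P, hP, Or.inr hP2⟩
  · obtain ⟨⟨P, hP1, hP2⟩⟩ := (span {(q : ℤ)}).nonempty_primesOver (S := 𝓞 K)
    refine ⟨P, ⟨hP1, hP2⟩, Or.inl ?_⟩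
    have hndvd : ¬ q ∣ p := fun h => hqpe ((Nat.prime_dvd_prime_iff_eq hqp hp.out).1 h)
    rw [IsCyclotomicExtension.Rat.inertiaDeg_eq_of_not_dvd q K P hndvd]
    apply lt_of_le_of_lt hfloor
    by_contra hcon
    apply hex
    refine ⟨orderOf (q : ZMod p), ?_, not_lt.1 hcon, pow_orderOf_eq_one _⟩
    have hu : IsUnit (q : ZMod p) := by
      rw [isUnit_iff_ne_zero]
      intro h0
      rw [ZMod.natCast_eq_zero_iff] at h0
      exact hndvd (((Nat.prime_dvd_prime_iff_eq hp.out hqp).1 h0) ▸ dvd_rfl)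
    obtain ⟨u, hu⟩ := hu
    rw [← hu, orderOf_units]
    exact orderOf_pos u

end Fermat.Agent.Kummer
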