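import Mathlib
import Fermat.Agent.Kummer.PIDAux

set_option autoImplicit false

namespace Fermat.Agent.Kummer

open NumberField Polynomial Ideal Real

lemma check7 : ∀ q < 5, ∀ f < 9, 1 ≤ f → q ^ f ≤ 4 → q ^ f % 7 = 1 → q ≤ 1 := by
  decide +kernel

set_option synthInstance.maxSize 1000 in
set_option synthInstance.maxHeartbeats 200000 in
lemma check11 : ∀ q < 60, ∀ f < 9, ¬ (1 ≤ f ∧ q ^ f ≤ 59 ∧ q ^ f % 11 = 1 ∧
    (q % 2 ≠ 0 ∨ q = 2) ∧ (q % 3 ≠ 0 ∨ q = 3) ∧ (q % 5 ≠ 0 ∨ q = 5) ∧ (q % 7 ≠ 0 ∨ q = 7)) ∨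
    q ≤ 1 ∨ q = 23 := by
  decide +kernel

set_option synthInstance.maxSize 1000 in
set_option synthInstance.maxHeartbeats 200000 in
lemma check13 : ∀ q < 311, ∀ f < 9, ¬ (1 ≤ f ∧ q ^ f ≤ 310 ∧ q ^ f % 13 = 1 ∧
    (q % 2 ≠ 0 ∨ q = 2) ∧ (q % 3 ≠ 0 ∨ q = 3) ∧ (q % 5 ≠ 0 ∨ q = 5) ∧ (q % 7 ≠ 0 ∨ q = 7) ∧
    (q % 11 ≠ 0 ∨ q = 11) ∧ (q % 17 ≠ 0 ∨ q = 17)) ∨
    q ≤ 1 ∨ q = 3 ∨ q = 53 ∨ q = 79 ∨ q = 131 ∨ q = 157 := by
  decide +kernel

lemma prime_mod {q : ℕ} (hq : q.Prime) {r : ℕ} (hr : r.Prime) : q % r ≠ 0 ∨ q = r := by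
  by_cases h : q % r = 0
  · exact Or.inr ((Nat.prime_dvd_prime_iff_eq hr hq).1 (Nat.dvd_of_mod_eq_zero h)).symm
  · exact Or.inl h

lemma f_lt {q f B : ℕ} (hq : q.Prime) (h : q ^ f ≤ B) (hB : B < 512) : f < 9 := by
  by_contra hc
  have h1 : 2 ^ 9 ≤ q ^ f := (Nat.pow_le_pow_right (by norm_num) (not_lt.1 hc)).trans
    (Nat.pow_le_pow_left hq.two_le f)
  omega

lemma zmod_pow {p q f : ℕ} (hp : 1 < p) (h : (q : ZMod p) ^ f = 1) : q ^ f % p = 1 := by
  have h1 : ((q ^ f : ℕ) : ZMod p) = ((1 : ℕ) : ZMod p) := by push_cast; exact h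
  rw [ZMod.natCast_eq_natCast_iff] at h1
  have h2 : q ^ f % p = 1 % p := h1
  rwa [Nat.mod_eq_of_lt hp] at h2

theorem pid_7 {K : Type*} [Field K] [NumberField K] [IsCyclotomicExtension {7} ℚ K] :
    IsPrincipalIdealRing (𝓞 K) := by
  have hζ := IsCyclotomicExtension.zeta_spec 7 ℚ K
  refine pid_aux (p := 7) hζ 4 ?_ ?_
  · rw [IsCyclotomicExtension.Rat.discr_prime 7 K, IsCyclotomicExtension.finrank (n := 7) K
      (cyclotomic.irreducible_rat (by norm_num)), Nat.totient_prime (by norm_num),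
      IsCyclotomicExtension.Rat.nrComplexPlaces_eq_totient_div_two 7 K,
      Nat.totient_prime (by norm_num)]
    have h1 : |(((-1) ^ ((7 - 1) / 2) * ((7 : ℕ) : ℤ) ^ (7 - 2) : ℤ) : ℝ)| = 16807 := by
      norm_num
    rw [h1]
    have h2 : √(16807 : ℝ) ≤ 130 := by
      rw [Real.sqrt_le_left (by norm_num)]; norm_num
    have h3 : ((7 - 1).factorial : ℝ) = 720 := by norm_num [Nat.factorial]
    have h4 : (4 / π) ≤ 4 / 3.14 := by
      gcongr; exact pi_gt_d2.le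
    rw [h3]
    calc (4 / π) ^ ((7 - 1) / 2) * (720 / (((7 - 1 : ℕ)) : ℝ) ^ (7 - 1) * √16807)
        ≤ (4 / 3.14) ^ ((7 - 1) / 2) * (720 / (((7 - 1 : ℕ)) : ℝ) ^ (7 - 1) * 130) := by
          gcongr
      _ < _ := by norm_num
  · rintro q hq hqp hne ⟨f, hf1, hf2, hf3⟩
    have := check7 q (by omega) f (f_lt hqp hf2 (by norm_num)) hf1 hf2 (zmod_pow (by norm_num) hf3)
    exact absurd hqp.one_lt (by omega)

theorem pid_11 {K : Type*} [Field K] [NumberField K] [IsCyclotomicExtension {11} ℚ K] :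
    IsPrincipalIdealRing (𝓞 K) := by
  have hζ := IsCyclotomicExtension.zeta_spec 11 ℚ K
  refine pid_aux (p := 11) hζ 59 ?_ ?_
  · rw [IsCyclotomicExtension.Rat.discr_prime 11 K, IsCyclotomicExtension.finrank (n := 11) K
      (cyclotomic.irreducible_rat (by norm_num)), Nat.totient_prime (by norm_num),
      IsCyclotomicExtension.Rat.nrComplexPlaces_eq_totient_div_two 11 K,
      Nat.totient_prime (by norm_num)]
    have h1 : |(((-1) ^ ((11 - 1) / 2) * ((11 : ℕ) : ℤ) ^ (11 - 2) : ℤ) : ℝ)| = 2357947691 := by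
      norm_num
    rw [h1]
    have h2 : √(2357947691 : ℝ) ≤ 48560 := by
      rw [Real.sqrt_le_left (by norm_num)]; norm_num
    have h3 : ((11 - 1).factorial : ℝ) = 3628800 := by norm_num [Nat.factorial]
    have h4 : (4 / π) ≤ 4 / 3.14 := by
      gcongr; exact pi_gt_d2.le
    rw [h3]
    calc (4 / π) ^ ((11 - 1) / 2) * (3628800 / (((11 - 1 : ℕ)) : ℝ) ^ (11 - 1) * √2357947691)
        ≤ (4 / 3.14) ^ ((11 - 1) / 2) * (3628800 / (((11 - 1 : ℕ)) : ℝ) ^ (11 - 1) * 48560) := by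
          gcongr
      _ < _ := by norm_num
  · rintro q hq hqp hne ⟨f, hf1, hf2, hf3⟩
    have := (check11 q (by omega) f (f_lt hqp hf2 (by norm_num))).resolve_left (not_not.2 ⟨hf1, hf2,
      (zmod_pow (by norm_num) hf3), (prime_mod hqp (by norm_num)), (prime_mod hqp (by norm_num)),
      (prime_mod hqp (by norm_num)), (prime_mod hqp (by norm_num))⟩)
    rcases this with h | rfl
    · exact absurd hqp.one_lt (by omega)
    · exact principal11_23 hζ

theorem pid_13 {K : Type*} [Field K] [NumberField K] [IsCyclotomicExtension {13} ℚ K] :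
    IsPrincipalIdealRing (𝓞 K) := by
  have hζ := IsCyclotomicExtension.zeta_spec 13 ℚ K
  refine pid_aux (p := 13) hζ 310 ?_ ?_
  · rw [IsCyclotomicExtension.Rat.discr_prime 13 K, IsCyclotomicExtension.finrank (n := 13) K
      (cyclotomic.irreducible_rat (by norm_num)), Nat.totient_prime (by norm_num),
      IsCyclotomicExtension.Rat.nrComplexPlaces_eq_totient_div_two 13 K,
      Nat.totient_prime (by norm_num)]
    have h1 : |(((-1) ^ ((13 - 1) / 2) * ((13 : ℕ) : ℤ) ^ (13 - 2) : ℤ) : ℝ)| = 1792160394037 := by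
      norm_num
    rw [h1]
    have h2 : √(1792160394037 : ℝ) ≤ 1338717 := by
      rw [Real.sqrt_le_left (by norm_num)]; norm_num
    have h3 : ((13 - 1).factorial : ℝ) = 479001600 := by norm_num [Nat.factorial]
    have h4 : (4 / π) ≤ 4 / 3.14 := by
      gcongr; exact pi_gt_d2.le
    rw [h3]
    calc (4 / π) ^ ((13 - 1) / 2) * (479001600 / (((13 - 1 : ℕ)) : ℝ) ^ (13 - 1) * √1792160394037)
        ≤ (4 / 3.14) ^ ((13 - 1) / 2) * (479001600 / (((13 - 1 : ℕ)) : ℝ) ^ (13 - 1) * 1338717) := by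
          gcongr
      _ < _ := by norm_num
  · rintro q hq hqp hne ⟨f, hf1, hf2, hf3⟩
    have := (check13 q (by omega) f (f_lt hqp hf2 (by norm_num))).resolve_left (not_not.2 ⟨hf1, hf2,
      (zmod_pow (by norm_num) hf3), (prime_mod hqp (by norm_num)), (prime_mod hqp (by norm_num)),
      (prime_mod hqp (by norm_num)), (prime_mod hqp (by norm_num)), (prime_mod hqp (by norm_num)),
      (prime_mod hqp (by norm_num))⟩)
    rcases this with h | rfl | rfl | rfl | rfl | rfl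
    · exact absurd hqp.one_lt (by omega)
    · exact principal13_3 hζ
    · exact principal13_53 hζ
    · exact principal13_79 hζ
    · exact principal13_131 hζ
    · exact principal13_157 hζ

end Fermat.Agent.Kummer
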