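import Mathlib
import Fermat.Agent.Kummer.Descent
import Fermat.Agent.Kummer.KummerLemma
import Fermat.Agent.Kummer.PID
import Fermat.Agent.Kummer.SophieGermain

set_option autoImplicit false

namespace Fermat.Agent.Kummer

open NumberField

theorem setting_of {p : ℕ} [hp : Fact p.Prime] (hp2 : p ≠ 2) {K : Type*} [Field K] [NumberField K]
    [IsCyclotomicExtension {p} ℚ K] [IsPrincipalIdealRing (𝓞 K)] {ζ : K}
    (hζ : IsPrimitiveRoot ζ p)
    (hk : ∀ u : (𝓞 K)ˣ, (∃ n : ℤ, (p : 𝓞 K) ∣ (u : 𝓞 K) - n) → ∃ v : (𝓞 K)ˣ, v ^ p = u) :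
    Setting (𝓞 K) p hζ.toInteger where
  pprime := hp.out
  pne2 := hp2
  prim := hζ.toInteger_isPrimitiveRoot
  lprime := hζ.zeta_sub_one_prime'
  assoc := IsCyclotomicExtension.Rat.associated_zeta_sub_one_pow_prime p hζ
  approx x := by
    obtain ⟨n, hn⟩ := exists_int_sub_dvd hζ 1 x
    exact ⟨n, by simpa using hn⟩
  intdvd n h := (IsCyclotomicExtension.Rat.zeta_sub_one_dvd_intCast_iff' p hζ).1 h
  kummer := hk

/-- Fermat's Last Theorem for a pairwise coprime triple and one exponent. -/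
theorem flt_of {p : ℕ} (hp : p.Prime) (hp2 : p ≠ 2)
    (hI : ∀ x y z : ℤ, IsCoprime x y → IsCoprime y z → IsCoprime z x → x ^ p + y ^ p + z ^ p = 0 →
      ¬ (p : ℤ) ∣ x → ¬ (p : ℤ) ∣ y → ¬ (p : ℤ) ∣ z → False)
    (hII : ∀ a b c : ℤ, a ^ p + b ^ p = c ^ p → IsCoprime a b → (p : ℤ) ∣ c → c ≠ 0 → False)
    {a b c : ℤ} (h : a ^ p + b ^ p = c ^ p) (hab : IsCoprime a b) (ha : a ≠ 0) (hb : b ≠ 0)
    (hc : c ≠ 0) : False := by
  have hodd := hp.odd_of_ne_two hp2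
  have hp0 := hp.ne_zero
  -- coprimality
  have hbc : IsCoprime b c := by
    have h1 : IsCoprime (b ^ p) (a ^ p) := hab.symm.pow
    have h2 : IsCoprime (b ^ p) (c ^ p) := by
      rw [← h]
      have := h1.add_mul_left_right 1
      rwa [mul_one] at this
    exact (IsCoprime.pow_iff hp.pos hp.pos).1 h2
  have hca : IsCoprime c a := by
    have h1 : IsCoprime (a ^ p) (b ^ p) := hab.pow
    have h2 : IsCoprime (a ^ p) (c ^ p) := by
      rw [← h, add_comm]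
      have := h1.add_mul_left_right 1
      rwa [mul_one] at this
    exact ((IsCoprime.pow_iff hp.pos hp.pos).1 h2).symm
  by_cases h1 : (p : ℤ) ∣ c
  · exact hII a b c h hab h1 hc
  by_cases h2 : (p : ℤ) ∣ a
  · refine hII c (-b) a ?_ hbc.symm.neg_right h2 ha
    rw [hodd.neg_pow, ← h]; ring
  by_cases h3 : (p : ℤ) ∣ b
  · refine hII c (-a) b ?_ hca.neg_right h3 hb
    rw [hodd.neg_pow, ← h]; ring
  · refine hI a b (-c) hab hbc.neg_right hca.neg_left ?_ h2 h3 (by rwa [Int.dvd_neg])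
    rw [hodd.neg_pow, ← h]; ring

instance cyc_inst (p : ℕ) [hp : Fact p.Prime] : IsCyclotomicExtension {p} ℚ (CyclotomicField p ℚ) :=
  haveI : NeZero ((p : ℕ) : ℚ) := ⟨Nat.cast_ne_zero.2 hp.out.ne_zero⟩
  CyclotomicField.isCyclotomicExtension p ℚ

theorem flt_five {a b c : ℤ} (h : a ^ 5 + b ^ 5 = c ^ 5) (hab : IsCoprime a b) (ha : a ≠ 0)
    (hb : b ≠ 0) (hc : c ≠ 0) : False := by
  have hcyc : IsCyclotomicExtension {5} ℚ (CyclotomicField 5 ℚ) := cyc_inst 5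
  have hpid : IsPrincipalIdealRing (𝓞 (CyclotomicField 5 ℚ)) :=
    IsCyclotomicExtension.Rat.five_pid _
  have hζ := IsCyclotomicExtension.zeta_spec 5 ℚ (CyclotomicField 5 ℚ)
  have S := setting_of (p := 5) (by norm_num) hζ (fun u hu => kummer_lemma_5 hζ u hu)
  exact flt_of (p := 5) (by norm_num) (by norm_num)
    (fun x y z h1 h2 h3 h4 h5 h6 h7 => caseI_five h1 h2 h3 h4 h5 h6 h7)
    (fun a b c h1 h2 h3 h4 => S.caseII h1 h2 h3 h4) h hab ha hb hc

theorem flt_seven {a b c : ℤ} (h : a ^ 7 + b ^ 7 = c ^ 7) (hab : IsCoprime a b) (ha : a ≠ 0)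
    (hb : b ≠ 0) (hc : c ≠ 0) : False := by
  have hcyc : IsCyclotomicExtension {7} ℚ (CyclotomicField 7 ℚ) := cyc_inst 7
  have hpid : IsPrincipalIdealRing (𝓞 (CyclotomicField 7 ℚ)) := pid_7
  have hζ := IsCyclotomicExtension.zeta_spec 7 ℚ (CyclotomicField 7 ℚ)
  have S := setting_of (p := 7) (by norm_num) hζ (fun u hu => kummer_lemma_7 hζ u hu)
  exact flt_of (p := 7) (by norm_num) (by norm_num)
    (fun x y z h1 h2 h3 h4 h5 h6 h7 => caseI_seven h1 h2 h3 h4 h5 h6 h7)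
    (fun a b c h1 h2 h3 h4 => S.caseII h1 h2 h3 h4) h hab ha hb hc

theorem flt_eleven {a b c : ℤ} (h : a ^ 11 + b ^ 11 = c ^ 11) (hab : IsCoprime a b) (ha : a ≠ 0)
    (hb : b ≠ 0) (hc : c ≠ 0) : False := by
  have hcyc : IsCyclotomicExtension {11} ℚ (CyclotomicField 11 ℚ) := cyc_inst 11
  have hpid : IsPrincipalIdealRing (𝓞 (CyclotomicField 11 ℚ)) := pid_11
  have hζ := IsCyclotomicExtension.zeta_spec 11 ℚ (CyclotomicField 11 ℚ)
  have S := setting_of (p := 11) (by norm_num) hζ (fun u hu => kummer_lemma_11 hζ u hu)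
  exact flt_of (p := 11) (by norm_num) (by norm_num)
    (fun x y z h1 h2 h3 h4 h5 h6 h7 => caseI_eleven h1 h2 h3 h4 h5 h6 h7)
    (fun a b c h1 h2 h3 h4 => S.caseII h1 h2 h3 h4) h hab ha hb hc

theorem flt_thirteen {a b c : ℤ} (h : a ^ 13 + b ^ 13 = c ^ 13) (hab : IsCoprime a b)
    (ha : a ≠ 0) (hb : b ≠ 0) (hc : c ≠ 0) : False := by
  have hcyc : IsCyclotomicExtension {13} ℚ (CyclotomicField 13 ℚ) := cyc_inst 13
  have hpid : IsPrincipalIdealRing (𝓞 (CyclotomicField 13 ℚ)) := pid_13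
  have hζ := IsCyclotomicExtension.zeta_spec 13 ℚ (CyclotomicField 13 ℚ)
  have S := setting_of (p := 13) (by norm_num) hζ (fun u hu => kummer_lemma_13 hζ u hu)
  exact flt_of (p := 13) (by norm_num) (by norm_num)
    (fun x y z h1 h2 h3 h4 h5 h6 h7 => caseI_thirteen h1 h2 h3 h4 h5 h6 h7)
    (fun a b c h1 h2 h3 h4 => S.caseII h1 h2 h3 h4) h hab ha hb hc

end Fermat.Agent.Kummer
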